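/-
ESJ / JAC-TORS analytic core (helper79): primitives and logarithms of holomorphic functions on the
upper half plane.  Mathlib + `S24/OrdH` (for `UHP`).

  * `exists_glue`          : gluing of compatible functions on an increasing sequence of sets;
  * `exists_primitive_UHP` : a holomorphic function on `UHP = {z | 0 < z.im}` has a primitive;
  * `exists_log_UHP`       : a nonvanishing holomorphic function on `UHP` is `exp ∘ L`;
  * `exists_primitive`, `exists_log`, `exists_root_of_ne_zero` : the same for `f : ℍ → ℂ`.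
-/
import Mathlib
import Fermat.Agent.S24.OrdH

set_option autoImplicit false

open Complex Metric Set Filter Topology UpperHalfPlane
open scoped Manifold

namespace Fermat.Agent.Lib.UHP

open Fermat.Agent.S24.OrdH

/-- Gluing of compatible functions along an increasing sequence of sets. -/
theorem exists_glue {α : Type*} [Inhabited α] (U : ℕ → Set ℂ) (hmono : ∀ m, U m ⊆ U (m + 1))
    (G : ℕ → ℂ → α) (hcompat : ∀ m, ∀ z ∈ U m, G (m + 1) z = G m z) :
    ∃ g : ℂ → α, ∀ m, ∀ z ∈ U m, g z = G m z := by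
  classical
  have hmono' : ∀ k m, k ≤ m → U k ⊆ U m := by
    intro k m hkm
    induction hkm with
    | refl => exact subset_rfl
    | step _ ih => exact ih.trans (hmono _)
  have hcompat' : ∀ k m, k ≤ m → ∀ z ∈ U k, G m z = G k z := by
    intro k m hkm
    induction hkm with
    | refl => intro z _; rfl
    | @step m hkm ih =>
      intro z hz
      rw [hcompat m z (hmono' k m hkm hz), ih z hz]
  refine ⟨fun z => if h : ∃ m, z ∈ U m then G (Nat.find h) z else default, ?_⟩
  intro m z hz
  have h : ∃ m, z ∈ U m := ⟨m, hz⟩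
  simp only [dif_pos h]
  exact (hcompat' (Nat.find h) m (Nat.find_min' h hz) z (Nat.find_spec h)).symm

/-- The balls `B m = ball (i (m+1)) (m+1)` exhaust the upper half plane. -/
def B (m : ℕ) : Set ℂ := ball (((m : ℝ) + 1 : ℝ) * Complex.I) ((m : ℝ) + 1)

theorem isOpen_B (m : ℕ) : IsOpen (B m) := isOpen_ball

theorem isPreconnected_B (m : ℕ) : IsPreconnected (B m) := (convex_ball _ _).isPreconnected

theorem mem_B_iff (m : ℕ) (z : ℂ) : z ∈ B m ↔ Complex.normSq z < 2 * ((m : ℝ) + 1) * z.im := by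
  have hm : (0 : ℝ) < (m : ℝ) + 1 := by positivity
  unfold B
  rw [mem_ball, Complex.dist_eq, ← sq_lt_sq₀ (norm_nonneg _) hm.le, Complex.sq_norm,
    Complex.normSq_apply, Complex.normSq_apply]
  simp only [Complex.sub_re, Complex.sub_im, Complex.mul_re, Complex.mul_im, Complex.ofReal_re,
    Complex.ofReal_im, Complex.I_re, Complex.I_im, mul_zero, mul_one, sub_zero, add_zero]
  constructor <;> intro h <;> nlinarith

theorem B_subset_UHP (m : ℕ) : B m ⊆ UHP := by
  intro z hz
  rw [mem_B_iff] at hz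
  have hm : (0 : ℝ) < (m : ℝ) + 1 := by positivity
  have h0 : 0 ≤ Complex.normSq z := Complex.normSq_nonneg z
  show 0 < z.im
  by_contra hcon
  push Not at hcon
  nlinarith

theorem B_mono (m : ℕ) : B m ⊆ B (m + 1) := by
  intro z hz
  have hz' := B_subset_UHP m hz
  rw [mem_B_iff] at hz ⊢
  have him : 0 < z.im := hz'
  push_cast
  nlinarith

theorem I_mem_B (m : ℕ) : Complex.I ∈ B m := by
  rw [mem_B_iff]
  simp only [Complex.normSq_I, Complex.I_im, mul_one]
  have : (0 : ℝ) ≤ (m : ℝ) := Nat.cast_nonneg m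
  linarith

theorem exists_mem_B {z : ℂ} (hz : z ∈ UHP) : ∃ m : ℕ, z ∈ B m := by
  have him : 0 < z.im := hz
  obtain ⟨m, hm⟩ := exists_nat_gt (Complex.normSq z / (2 * z.im))
  refine ⟨m, ?_⟩
  rw [mem_B_iff]
  rw [div_lt_iff₀ (by positivity)] at hm
  nlinarith

/-- A holomorphic function on the upper half plane has a primitive. -/
theorem exists_primitive_UHP {f : ℂ → ℂ} (hf : DifferentiableOn ℂ f UHP) :
    ∃ G : ℂ → ℂ, ∀ z ∈ UHP, HasDerivAt G (f z) z := by
  have hex : ∀ m : ℕ, ∃ g : ℂ → ℂ, g Complex.I = 0 ∧ ∀ x ∈ B m, HasDerivAt g (f x) x := fun m =>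
    ((hf.mono (B_subset_UHP m)).isExactOn_ball).with_val_at Complex.I 0
  choose G hG0 hG using hex
  have hcompat : ∀ m, ∀ z ∈ B m, G (m + 1) z = G m z := by
    intro m
    have hd1 : DifferentiableOn ℂ (G (m + 1)) (B m) := fun x hx =>
      (hG (m + 1) x (B_mono m hx)).differentiableAt.differentiableWithinAt
    have hd2 : DifferentiableOn ℂ (G m) (B m) := fun x hx =>
      (hG m x hx).differentiableAt.differentiableWithinAt
    have hderiv : (B m).EqOn (deriv (G (m + 1))) (deriv (G m)) := fun x hx => by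
      rw [(hG (m + 1) x (B_mono m hx)).deriv, (hG m x hx).deriv]
    exact (isOpen_B m).eqOn_of_deriv_eq (isPreconnected_B m) hd1 hd2 hderiv (I_mem_B m)
      (by rw [hG0, hG0])
  obtain ⟨g, hg⟩ := exists_glue B B_mono G hcompat
  refine ⟨g, fun z hz => ?_⟩
  obtain ⟨m, hm⟩ := exists_mem_B hz
  have heq : g =ᶠ[𝓝 z] G m := by
    filter_upwards [(isOpen_B m).mem_nhds hm] with w hw using hg m w hw
  exact (hG m z hm).congr_of_eventuallyEq heq

theorem I_mem_UHP : Complex.I ∈ UHP := by
  show 0 < Complex.I.im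
  simp

/-- A nonvanishing holomorphic function on the upper half plane has a holomorphic logarithm. -/
theorem exists_log_UHP {f : ℂ → ℂ} (hf : DifferentiableOn ℂ f UHP) (h0 : ∀ z ∈ UHP, f z ≠ 0) :
    ∃ L : ℂ → ℂ, DifferentiableOn ℂ L UHP ∧ ∀ z ∈ UHP, Complex.exp (L z) = f z := by
  have hdf : DifferentiableOn ℂ (deriv f) UHP := hf.deriv isOpen_UHP
  have hquot : DifferentiableOn ℂ (fun z => deriv f z / f z) UHP := hdf.div hf h0
  obtain ⟨G₀, hG₀⟩ := exists_primitive_UHP hquot
  set c : ℂ := Complex.log (f Complex.I) with hc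
  set L : ℂ → ℂ := fun z => G₀ z - G₀ Complex.I + c with hL
  have hLd : ∀ z ∈ UHP, HasDerivAt L (deriv f z / f z) z := by
    intro z hz
    have h := ((hG₀ z hz).sub_const (G₀ Complex.I)).add_const c
    exact h
  have hLdiff : DifferentiableOn ℂ L UHP := fun z hz =>
    (hLd z hz).differentiableAt.differentiableWithinAt
  refine ⟨L, hLdiff, ?_⟩
  -- `F = f * exp (-L)` has derivative `0`
  set F : ℂ → ℂ := fun z => f z * Complex.exp (-L z) with hF
  have hFd : ∀ z ∈ UHP, HasDerivAt F 0 z := by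
    intro z hz
    have hfz : HasDerivAt f (deriv f z) z :=
      (hf.differentiableAt (isOpen_UHP.mem_nhds hz)).hasDerivAt
    have hexp : HasDerivAt (fun z => Complex.exp (-L z))
        (Complex.exp (-L z) * (-(deriv f z / f z))) z := ((hLd z hz).neg).cexp
    have h := hfz.mul hexp
    have hval : deriv f z * Complex.exp (-L z) +
        f z * (Complex.exp (-L z) * (-(deriv f z / f z))) = 0 := by
      have := h0 z hz
      field_simp
      ring
    rw [hval] at h
    exact h
  have hFdiff : DifferentiableOn ℂ F UHP := fun z hz =>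
    (hFd z hz).differentiableAt.differentiableWithinAt
  have hconst : UHP.EqOn F (fun _ => (1 : ℂ)) := by
    refine isOpen_UHP.eqOn_of_deriv_eq isPreconnected_UHP hFdiff
      (differentiableOn_const (c := (1 : ℂ))) ?_ I_mem_UHP ?_
    · intro z hz
      rw [(hFd z hz).deriv]
      simp
    · simp only [hF, hL, sub_self, zero_add, hc]
      rw [Complex.exp_neg, Complex.exp_log (h0 Complex.I I_mem_UHP)]
      exact mul_inv_cancel₀ (h0 Complex.I I_mem_UHP)
  intro z hz
  have h1 : f z * Complex.exp (-L z) = 1 := hconst hz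
  rw [Complex.exp_neg] at h1
  have hne : Complex.exp (L z) ≠ 0 := Complex.exp_ne_zero _
  field_simp at h1
  exact h1.symm

/-! ### Versions for functions on `ℍ` -/

/-- A function on `ℍ` which is the restriction of a function holomorphic on `UHP` is
holomorphic. -/
theorem mdiff_of_differentiableOn {L : ℂ → ℂ} (hL : DifferentiableOn ℂ L UHP) :
    MDiff (fun z : ℍ => L (z : ℂ)) := by
  rw [UpperHalfPlane.mdifferentiable_iff]
  refine hL.congr (fun w hw => ?_)
  have hw' : 0 < w.im := hw
  simp only [Function.comp_apply]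
  rw [ofComplex_apply_of_im_pos hw']

theorem differentiableOn_comp_ofComplex {f : ℍ → ℂ} (hf : MDiff f) :
    DifferentiableOn ℂ (f ∘ ofComplex) UHP := UpperHalfPlane.mdifferentiable_iff.mp hf

theorem comp_ofComplex_coe (f : ℍ → ℂ) (z : ℍ) : (f ∘ ofComplex) (z : ℂ) = f z := by
  simp [Function.comp, ofComplex_apply]

/-- Every holomorphic function on `ℍ` has a holomorphic primitive. -/
theorem exists_primitive {f : ℍ → ℂ} (hf : MDiff f) :
    ∃ G : ℍ → ℂ, MDiff G ∧ ∀ τ : ℍ, HasDerivAt (G ∘ ofComplex) (f τ) (τ : ℂ) := by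
  obtain ⟨G, hG⟩ := exists_primitive_UHP (differentiableOn_comp_ofComplex hf)
  have hGd : DifferentiableOn ℂ G UHP := fun z hz =>
    (hG z hz).differentiableAt.differentiableWithinAt
  refine ⟨fun z : ℍ => G (z : ℂ), mdiff_of_differentiableOn hGd, fun τ => ?_⟩
  have h := hG τ (coe_mem_UHP τ)
  rw [comp_ofComplex_coe] at h
  refine h.congr_of_eventuallyEq ?_
  filter_upwards [isOpen_UHP.mem_nhds (coe_mem_UHP τ)] with w hw
  have hw' : 0 < w.im := hw
  simp only [Function.comp_apply]
  rw [ofComplex_apply_of_im_pos hw']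

/-- A nowhere vanishing holomorphic function on `ℍ` has a holomorphic logarithm. -/
theorem exists_log {f : ℍ → ℂ} (hf : MDiff f) (h0 : ∀ z, f z ≠ 0) :
    ∃ L : ℍ → ℂ, MDiff L ∧ ∀ z, Complex.exp (L z) = f z := by
  obtain ⟨L, hL, hexp⟩ := exists_log_UHP (differentiableOn_comp_ofComplex hf) (fun w hw => by
    have hw' : 0 < w.im := hw
    simp only [Function.comp_apply]
    exact h0 _)
  refine ⟨fun z : ℍ => L (z : ℂ), mdiff_of_differentiableOn hL, fun z => ?_⟩
  rw [hexp z (coe_mem_UHP z), comp_ofComplex_coe]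

/-- A nowhere vanishing holomorphic function on `ℍ` has holomorphic `n`-th roots. -/
theorem exists_root_of_ne_zero {f : ℍ → ℂ} (hf : MDiff f) (h0 : ∀ z, f z ≠ 0) (n : ℕ)
    (hn : n ≠ 0) : ∃ h : ℍ → ℂ, MDiff h ∧ (∀ z, h z ≠ 0) ∧ ∀ z, h z ^ n = f z := by
  obtain ⟨L, hL, hexp⟩ := exists_log hf h0
  refine ⟨fun z => Complex.exp (L z / n), ?_, fun z => Complex.exp_ne_zero _, fun z => ?_⟩
  · rw [UpperHalfPlane.mdifferentiable_iff]
    exact ((differentiableOn_comp_ofComplex hL).div_const (n : ℂ)).cexp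
  · rw [← Complex.exp_nat_mul, mul_div_cancel₀ _ (Nat.cast_ne_zero.mpr hn), hexp]

end Fermat.Agent.Lib.UHP
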