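/-
ESJ / JAC-TORS analytic core (helper79): `n`-th roots of holomorphic functions on the upper half
plane ("Kummer theory on `ℍ`").  Mathlib + `S24/OrdH` + `Lib/UHP/Primitive`.

  * `exists_log_ball`, `exists_root_ball_of_ne_zero` : logarithms and roots of nonvanishing
    holomorphic functions on a ball;
  * `exists_root_of_finite_zeros` : roots when there are finitely many zeros, all of order
    divisible by `n`;
  * `exists_root_of_unity_of_pow_eq` : two analytic functions on a preconnected set with the same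
    `n`-th power differ by an `n`-th root of unity;
  * `exists_nth_root_UHP`, `exists_nth_root` : a holomorphic function on `ℍ`, not identically
    zero, all of whose orders are divisible by `n`, is an `n`-th power;
  * `exists_nth_root_frac` : the version for fractions `f / g`;
  * `exists_root_of_unity_of_pow_eq'` : uniqueness of `n`-th roots on `ℍ` up to `μ_n`.
-/
import Mathlib
import Fermat.Agent.S24.OrdH
import Fermat.Agent.Lib.UHP.Primitive

set_option autoImplicit false

open Complex Metric Set Filter Topology UpperHalfPlane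
open scoped Manifold

namespace Fermat.Agent.Lib.UHP

open Fermat.Agent.S24.OrdH

/-- A nonvanishing holomorphic function on a ball has a holomorphic logarithm. -/
theorem exists_log_ball {f : ℂ → ℂ} {c : ℂ} {r : ℝ} (hf : DifferentiableOn ℂ f (ball c r))
    (h0 : ∀ z ∈ ball c r, f z ≠ 0) :
    ∃ L : ℂ → ℂ, DifferentiableOn ℂ L (ball c r) ∧ ∀ z ∈ ball c r, Complex.exp (L z) = f z := by
  by_cases hr : 0 < r
  swap
  · refine ⟨fun _ => 0, differentiableOn_const _, fun z hz => ?_⟩
    rw [ball_eq_empty.mpr (not_lt.mp hr)] at hz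
    exact absurd hz (Set.notMem_empty z)
  have hc : c ∈ ball c r := mem_ball_self hr
  have hopen : IsOpen (ball c r) := isOpen_ball
  have hconn : IsPreconnected (ball c r) := (convex_ball _ _).isPreconnected
  have hdf : DifferentiableOn ℂ (deriv f) (ball c r) := hf.deriv hopen
  have hquot : DifferentiableOn ℂ (fun z => deriv f z / f z) (ball c r) := hdf.div hf h0
  obtain ⟨G₀, hG₀⟩ := hquot.isExactOn_ball
  set c₀ : ℂ := Complex.log (f c) with hc₀
  set L : ℂ → ℂ := fun z => G₀ z - G₀ c + c₀ with hL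
  have hLd : ∀ z ∈ ball c r, HasDerivAt L (deriv f z / f z) z := by
    intro z hz
    have h := ((hG₀ z hz).sub_const (G₀ c)).add_const c₀
    exact h
  have hLdiff : DifferentiableOn ℂ L (ball c r) := fun z hz =>
    (hLd z hz).differentiableAt.differentiableWithinAt
  refine ⟨L, hLdiff, ?_⟩
  set F : ℂ → ℂ := fun z => f z * Complex.exp (-L z) with hF
  have hFd : ∀ z ∈ ball c r, HasDerivAt F 0 z := by
    intro z hz
    have hfz : HasDerivAt f (deriv f z) z :=
      (hf.differentiableAt (hopen.mem_nhds hz)).hasDerivAt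
    have hexp : HasDerivAt (fun z => Complex.exp (-L z))
        (Complex.exp (-L z) * (-(deriv f z / f z))) z := ((hLd z hz).neg).cexp
    have h := hfz.mul hexp
    have hval : deriv f z * Complex.exp (-L z) +
        f z * (Complex.exp (-L z) * (-(deriv f z / f z))) = 0 := by
      have := h0 z hz
      field_simp
      ring
    rw [hval] at h
    exact h
  have hFdiff : DifferentiableOn ℂ F (ball c r) := fun z hz =>
    (hFd z hz).differentiableAt.differentiableWithinAt
  have hconst : (ball c r).EqOn F (fun _ => (1 : ℂ)) := by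
    refine hopen.eqOn_of_deriv_eq hconn hFdiff
      (differentiableOn_const (c := (1 : ℂ))) ?_ hc ?_
    · intro z hz
      rw [(hFd z hz).deriv]
      simp
    · simp only [hF, hL, sub_self, zero_add, hc₀]
      rw [Complex.exp_neg, Complex.exp_log (h0 c hc)]
      exact mul_inv_cancel₀ (h0 c hc)
  intro z hz
  have h1 : f z * Complex.exp (-L z) = 1 := hconst hz
  rw [Complex.exp_neg] at h1
  have hne : Complex.exp (L z) ≠ 0 := Complex.exp_ne_zero _
  field_simp at h1
  exact h1.symm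

/-- A nonvanishing holomorphic function on a ball has holomorphic `n`-th roots. -/
theorem exists_root_ball_of_ne_zero {f : ℂ → ℂ} {c : ℂ} {r : ℝ}
    (hf : AnalyticOnNhd ℂ f (ball c r)) (h0 : ∀ z ∈ ball c r, f z ≠ 0) {n : ℕ} (hn : n ≠ 0) :
    ∃ H : ℂ → ℂ, AnalyticOnNhd ℂ H (ball c r) ∧ ∀ z ∈ ball c r, H z ^ n = f z := by
  obtain ⟨L, hL, hexp⟩ := exists_log_ball hf.differentiableOn h0
  refine ⟨fun z => Complex.exp (L z / n), ?_, fun z hz => ?_⟩
  · exact ((hL.div_const (n : ℂ)).cexp).analyticOnNhd isOpen_ball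
  · rw [← Complex.exp_nat_mul, mul_div_cancel₀ _ (Nat.cast_ne_zero.mpr hn), hexp z hz]

/-- If a holomorphic function on an open set `U` has finitely many zeros, all of order divisible
by `n`, and nonvanishing holomorphic functions on `U` have `n`-th roots, then it has a
holomorphic `n`-th root. -/
theorem exists_root_of_finite_zeros {U : Set ℂ} {n : ℕ}
    (hroot : ∀ G : ℂ → ℂ, AnalyticOnNhd ℂ G U → (∀ z ∈ U, G z ≠ 0) →
      ∃ H : ℂ → ℂ, AnalyticOnNhd ℂ H U ∧ ∀ z ∈ U, H z ^ n = G z)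
    (s : Finset ℂ) : ∀ F : ℂ → ℂ, AnalyticOnNhd ℂ F U → (∀ z ∈ U, F z = 0 → z ∈ s) →
      (∀ z ∈ U, analyticOrderAt F z ≠ ⊤) → (∀ z ∈ U, n ∣ analyticOrderNatAt F z) →
      ∃ H : ℂ → ℂ, AnalyticOnNhd ℂ H U ∧ ∀ z ∈ U, H z ^ n = F z := by
  classical
  induction s using Finset.induction_on with
  | empty =>
    intro F hF hz _ _
    exact hroot F hF (fun z hzU h0 => by simpa using hz z hzU h0)
  | insert a s has ih =>
    intro F hF hz htop hdiv
    by_cases haU : a ∈ U ∧ F a = 0
    · obtain ⟨haU, hFa⟩ := haU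
      obtain ⟨k, hk⟩ := hdiv a haU
      obtain ⟨g, hg, hga, hgeq⟩ := (hF a haU).analyticOrderAt_ne_top.mp (htop a haU)
      rw [hk] at hgeq
      have hk0 : n * k ≠ 0 := by
        rw [← hk]
        intro h0
        have h1 : analyticOrderAt F a = 0 := by
          rw [← Nat.cast_analyticOrderNatAt (htop a haU), h0]
          rfl
        rw [(hF a haU).analyticOrderAt_eq_zero] at h1
        exact h1 hFa
      have hk0' : k ≠ 0 := fun h => hk0 (by rw [h, mul_zero])
      set F₁ : ℂ → ℂ := fun z => if z = a then g a else F z / (z - a) ^ (n * k) with hF₁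
      have hF₁a : F₁ =ᶠ[𝓝 a] g := by
        filter_upwards [hgeq] with z hz
        by_cases hza : z = a
        · simp [hF₁, hza]
        · have hne : z - a ≠ 0 := sub_ne_zero.mpr hza
          simp only [hF₁, if_neg hza]
          rw [hz, smul_eq_mul]
          field_simp
      have hF₁ne : ∀ z, z ≠ a → F₁ =ᶠ[𝓝 z] fun w => F w / (w - a) ^ (n * k) := by
        intro z hza
        filter_upwards [isOpen_ne.mem_nhds hza] with w hw
        simp only [hF₁, if_neg hw]
      have hF₁an : AnalyticOnNhd ℂ F₁ U := by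
        intro z hzU
        by_cases hza : z = a
        · subst hza
          exact hg.congr hF₁a.symm
        · refine AnalyticAt.congr ?_ (hF₁ne z hza).symm
          exact (hF z hzU).div (by fun_prop) (pow_ne_zero _ (sub_ne_zero.mpr hza))
      have hF₁a0 : F₁ a ≠ 0 := by simpa [hF₁] using hga
      have hmul : ∀ z, F z = (z - a) ^ (n * k) * F₁ z := by
        intro z
        by_cases hza : z = a
        · subst hza
          simp [hFa, hk0]
        · have hne : z - a ≠ 0 := sub_ne_zero.mpr hza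
          simp only [hF₁, if_neg hza]
          field_simp
      have hord : ∀ z ∈ U, z ≠ a → analyticOrderAt F₁ z = analyticOrderAt F z := by
        intro z hzU hza
        have hFeq : F = (fun w => (w - a) ^ (n * k)) * F₁ := funext hmul
        have hpa : AnalyticAt ℂ (fun w : ℂ => (w - a) ^ (n * k)) z := by fun_prop
        have hp0 : analyticOrderAt (fun w : ℂ => (w - a) ^ (n * k)) z = 0 := by
          rw [hpa.analyticOrderAt_eq_zero]
          exact pow_ne_zero _ (sub_ne_zero.mpr hza)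
        rw [hFeq, analyticOrderAt_mul hpa (hF₁an z hzU), hp0, zero_add]
      have hz₁ : ∀ z ∈ U, F₁ z = 0 → z ∈ s := by
        intro z hzU h0
        have hza : z ≠ a := by
          rintro rfl
          exact hF₁a0 h0
        have hFz : F z = 0 := by rw [hmul z, h0, mul_zero]
        exact (Finset.mem_insert.mp (hz z hzU hFz)).resolve_left hza
      have htop₁ : ∀ z ∈ U, analyticOrderAt F₁ z ≠ ⊤ := by
        intro z hzU
        by_cases hza : z = a
        · subst hza
          rw [(hF₁an z hzU).analyticOrderAt_eq_zero.mpr hF₁a0]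
          exact ENat.zero_ne_top
        · rw [hord z hzU hza]
          exact htop z hzU
      have hdiv₁ : ∀ z ∈ U, n ∣ analyticOrderNatAt F₁ z := by
        intro z hzU
        by_cases hza : z = a
        · subst hza
          have : analyticOrderNatAt F₁ z = 0 := by
            unfold analyticOrderNatAt
            rw [(hF₁an z hzU).analyticOrderAt_eq_zero.mpr hF₁a0]
            rfl
          rw [this]
          exact dvd_zero n
        · have : analyticOrderNatAt F₁ z = analyticOrderNatAt F z := by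
            unfold analyticOrderNatAt
            rw [hord z hzU hza]
          rw [this]
          exact hdiv z hzU
      obtain ⟨H₁, hH₁, hH₁pow⟩ := ih F₁ hF₁an hz₁ htop₁ hdiv₁
      refine ⟨fun z => (z - a) ^ k * H₁ z, ?_, fun z hzU => ?_⟩
      · intro z hzU
        exact (by fun_prop : AnalyticAt ℂ (fun w : ℂ => (w - a) ^ k) z).mul (hH₁ z hzU)
      · rw [mul_pow, hH₁pow z hzU, hmul z, ← pow_mul, mul_comm k n]
    · refine ih F hF (fun z hzU h0 => ?_) htop hdiv
      have hza : z ≠ a := by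
        rintro rfl
        exact haU ⟨hzU, h0⟩
      exact (Finset.mem_insert.mp (hz z hzU h0)).resolve_left hza

/-- If a finite product of analytic functions vanishes identically on a nonempty preconnected
set, then one of the factors does. -/
theorem exists_eqOn_zero_of_prod_eq_zero {ι : Type*} {U : Set ℂ} (hU : IsPreconnected U)
    (hne : U.Nonempty) (s : Finset ι) (G : ι → ℂ → ℂ) (hG : ∀ i ∈ s, AnalyticOnNhd ℂ (G i) U)
    (hprod : ∀ z ∈ U, ∏ i ∈ s, G i z = 0) : ∃ i ∈ s, ∀ z ∈ U, G i z = 0 := by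
  classical
  induction s using Finset.induction_on with
  | empty =>
    obtain ⟨z, hz⟩ := hne
    have := hprod z hz
    simp at this
  | insert a s has ih =>
    have hGa : AnalyticOnNhd ℂ (G a) U := hG a (Finset.mem_insert_self a s)
    have hGs : AnalyticOnNhd ℂ (fun z => ∏ i ∈ s, G i z) U :=
      Finset.analyticOnNhd_fun_prod s (fun i hi => hG i (Finset.mem_insert_of_mem hi))
    have hmul : ∀ z ∈ U, G a z * ∏ i ∈ s, G i z = 0 := by
      intro z hz
      have := hprod z hz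
      rwa [Finset.prod_insert has] at this
    rcases hGa.eq_zero_or_eq_zero_of_mul_eq_zero hGs hmul hU with h | h
    · exact ⟨a, Finset.mem_insert_self a s, h⟩
    · obtain ⟨i, hi, hi0⟩ := ih (fun i hi => hG i (Finset.mem_insert_of_mem hi)) h
      exact ⟨i, Finset.mem_insert_of_mem hi, hi0⟩

/-- Two analytic functions on a preconnected set with the same `n`-th power differ by an `n`-th
root of unity. -/
theorem exists_root_of_unity_of_pow_eq {U : Set ℂ} (hU : IsPreconnected U) {H₁ H₂ : ℂ → ℂ}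
    (h₁ : AnalyticOnNhd ℂ H₁ U) (h₂ : AnalyticOnNhd ℂ H₂ U) {n : ℕ} (hn : 0 < n)
    (hpow : ∀ z ∈ U, H₁ z ^ n = H₂ z ^ n) : ∃ ζ : ℂ, ζ ^ n = 1 ∧ ∀ z ∈ U, H₁ z = ζ * H₂ z := by
  rcases U.eq_empty_or_nonempty with hU0 | hne
  · exact ⟨1, one_pow n, fun z hz => by rw [hU0] at hz; exact absurd hz (Set.notMem_empty z)⟩
  have hprim := Complex.isPrimitiveRoot_exp n hn.ne'
  have hprod : ∀ z ∈ U, ∏ ζ ∈ Polynomial.nthRootsFinset n (1 : ℂ), (H₁ z - ζ * H₂ z) = 0 := by
    intro z hz
    rw [← hprim.pow_sub_pow_eq_prod_sub_mul (H₁ z) (H₂ z) hn, hpow z hz, sub_self]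
  obtain ⟨ζ, hζ, hζ0⟩ := exists_eqOn_zero_of_prod_eq_zero hU hne
    (Polynomial.nthRootsFinset n (1 : ℂ)) (fun ζ z => H₁ z - ζ * H₂ z)
    (fun ζ _ => h₁.sub (analyticOnNhd_const.mul h₂)) hprod
  refine ⟨ζ, (Polynomial.mem_nthRootsFinset hn 1).mp hζ, fun z hz => ?_⟩
  exact sub_eq_zero.mp (hζ0 z hz)

/-- Two analytic `n`-th roots of the same function on a preconnected set which agree at a point
where they do not vanish are equal. -/
theorem eqOn_of_pow_eq {U : Set ℂ} (hU : IsPreconnected U) {H₁ H₂ : ℂ → ℂ}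
    (h₁ : AnalyticOnNhd ℂ H₁ U) (h₂ : AnalyticOnNhd ℂ H₂ U) {n : ℕ} (hn : 0 < n)
    (hpow : ∀ z ∈ U, H₁ z ^ n = H₂ z ^ n) {z₀ : ℂ} (hz₀ : z₀ ∈ U) (heq : H₁ z₀ = H₂ z₀)
    (hne : H₁ z₀ ≠ 0) : ∀ z ∈ U, H₁ z = H₂ z := by
  obtain ⟨ζ, -, hζ⟩ := exists_root_of_unity_of_pow_eq hU h₁ h₂ hn hpow
  have h1 : ζ = 1 := by
    have h := hζ z₀ hz₀
    rw [← heq] at h
    have h2 : (1 - ζ) * H₁ z₀ = 0 := by linear_combination h
    rcases mul_eq_zero.mp h2 with h3 | h3
    · exact (sub_eq_zero.mp h3).symm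
    · exact absurd h3 hne
  intro z hz
  rw [hζ z hz, h1, one_mul]

/-! ### An exhaustion of the upper half plane by relatively compact balls -/

/-- The balls `D m = ball (i (m+2)) (m + 2 - 1/(m+2))`; their closures are compact subsets of the
upper half plane, and they exhaust it. -/
def D (m : ℕ) : Set ℂ :=
  ball ((((m : ℝ) + 2 : ℝ) : ℂ) * Complex.I) ((m : ℝ) + 2 - 1 / ((m : ℝ) + 2))

/-- The closed ball with the same centre and radius as `D m`. -/
def Dbar (m : ℕ) : Set ℂ :=
  closedBall ((((m : ℝ) + 2 : ℝ) : ℂ) * Complex.I) ((m : ℝ) + 2 - 1 / ((m : ℝ) + 2))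

theorem isOpen_D (m : ℕ) : IsOpen (D m) := isOpen_ball

theorem isPreconnected_D (m : ℕ) : IsPreconnected (D m) := (convex_ball _ _).isPreconnected

theorem isCompact_Dbar (m : ℕ) : IsCompact (Dbar m) := isCompact_closedBall _ _

theorem D_subset_Dbar (m : ℕ) : D m ⊆ Dbar m := ball_subset_closedBall

theorem Dbar_subset_UHP (m : ℕ) : Dbar m ⊆ UHP := by
  intro z hz
  have hm : (0 : ℝ) < (m : ℝ) + 2 := by positivity
  have hm' : (0 : ℝ) < 1 / ((m : ℝ) + 2) := by positivity
  unfold Dbar at hz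
  rw [mem_closedBall, Complex.dist_eq] at hz
  have h1 := Complex.abs_im_le_norm (z - (((m : ℝ) + 2 : ℝ) : ℂ) * Complex.I)
  simp only [Complex.sub_im, Complex.mul_im, Complex.ofReal_re, Complex.ofReal_im, Complex.I_re,
    Complex.I_im, mul_zero, mul_one, add_zero] at h1
  have h2 := (abs_le.mp (h1.trans hz)).1
  show 0 < z.im
  linarith

theorem D_subset_UHP (m : ℕ) : D m ⊆ UHP := (D_subset_Dbar m).trans (Dbar_subset_UHP m)

theorem D_mono (m : ℕ) : D m ⊆ D (m + 1) := by
  unfold D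
  apply ball_subset_ball'
  have hm : (0 : ℝ) < (m : ℝ) + 2 := by positivity
  have hm3 : (0 : ℝ) < (m : ℝ) + 3 := by positivity
  have hdist : dist ((((m : ℝ) + 2 : ℝ) : ℂ) * Complex.I)
      (((((m + 1 : ℕ) : ℝ) + 2 : ℝ) : ℂ) * Complex.I) = 1 := by
    rw [Complex.dist_eq, ← sub_mul, norm_mul, Complex.norm_I, mul_one, ← Complex.ofReal_sub,
      Complex.norm_real]
    push_cast
    norm_num
  rw [hdist]
  push_cast
  have h1 : 1 / ((m : ℝ) + 1 + 2) ≤ 1 / ((m : ℝ) + 2) :=
    one_div_le_one_div_of_le hm (by linarith)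
  linarith

theorem D_subset_D {k m : ℕ} (hkm : k ≤ m) : D k ⊆ D m := by
  induction hkm with
  | refl => exact subset_rfl
  | step _ ih => exact ih.trans (D_mono _)

theorem I_mem_D (m : ℕ) : Complex.I ∈ D m := by
  unfold D
  have hm : (0 : ℝ) < (m : ℝ) + 2 := by positivity
  have hm1 : (0 : ℝ) ≤ (m : ℝ) := Nat.cast_nonneg m
  rw [mem_ball, Complex.dist_eq]
  have h1 : Complex.I - (((m : ℝ) + 2 : ℝ) : ℂ) * Complex.I
      = (((-(m : ℝ) - 1 : ℝ)) : ℂ) * Complex.I := by
    push_cast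
    ring
  rw [h1, norm_mul, Complex.norm_I, mul_one, Complex.norm_real, Real.norm_eq_abs,
    abs_of_nonpos (by linarith)]
  have h2 : 1 / ((m : ℝ) + 2) < 1 := by
    rw [div_lt_one hm]
    linarith
  linarith

theorem exists_mem_D {z : ℂ} (hz : z ∈ UHP) : ∃ m : ℕ, z ∈ D m := by
  have him : 0 < z.im := hz
  obtain ⟨m, hm⟩ := exists_nat_gt ((Complex.normSq z + 2) / (2 * z.im))
  refine ⟨m, ?_⟩
  rw [div_lt_iff₀ (by positivity)] at hm
  have hm0 : (0 : ℝ) ≤ (m : ℝ) := Nat.cast_nonneg m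
  have hm2 : (0 : ℝ) < (m : ℝ) + 2 := by positivity
  have hinv : (0 : ℝ) < 1 / ((m : ℝ) + 2) := by positivity
  have hinv1 : 1 / ((m : ℝ) + 2) ≤ 1 / 2 := one_div_le_one_div_of_le (by norm_num) (by linarith)
  have hr : (0 : ℝ) < (m : ℝ) + 2 - 1 / ((m : ℝ) + 2) := by linarith
  have hcancel : ((m : ℝ) + 2) * (1 / ((m : ℝ) + 2)) = 1 := by
    field_simp
  unfold D
  rw [mem_ball, Complex.dist_eq, ← sq_lt_sq₀ (norm_nonneg _) hr.le, Complex.sq_norm,
    Complex.normSq_apply]
  rw [Complex.normSq_apply] at hm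
  simp only [Complex.sub_re, Complex.sub_im, Complex.mul_re, Complex.mul_im, Complex.ofReal_re,
    Complex.ofReal_im, Complex.I_re, Complex.I_im, mul_zero, mul_one, sub_zero, add_zero]
  nlinarith [sq_nonneg (1 / ((m : ℝ) + 2))]

/-! ### `n`-th roots on the upper half plane -/

/-- A function analytic on the upper half plane and not identically zero has finite order
everywhere. -/
theorem analyticOrderAt_ne_top_UHP {F : ℂ → ℂ} (hF : AnalyticOnNhd ℂ F UHP)
    (hF0 : ∃ z ∈ UHP, F z ≠ 0) {z : ℂ} (hz : z ∈ UHP) : analyticOrderAt F z ≠ ⊤ := by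
  obtain ⟨w, hw, hFw⟩ := hF0
  refine hF.analyticOrderAt_ne_top_of_isPreconnected isPreconnected_UHP hw hz ?_
  rw [(hF w hw).analyticOrderAt_eq_zero.mpr hFw]
  exact ENat.zero_ne_top

/-- A function analytic on the upper half plane and not identically zero has finitely many zeros
in any compact subset. -/
theorem finite_zeros_of_isCompact {F : ℂ → ℂ} (hF : AnalyticOnNhd ℂ F UHP)
    (hF0 : ∃ z ∈ UHP, F z ≠ 0) {K : Set ℂ} (hK : IsCompact K) (hKU : K ⊆ UHP) :
    {z ∈ K | F z = 0}.Finite := by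
  by_contra hinf
  obtain ⟨x, hxK, hacc⟩ :=
    Set.Infinite.exists_accPt_of_subset_isCompact (Set.not_finite.mp hinf) hK (sep_subset _ _)
  rw [accPt_iff_frequently_nhdsNE] at hacc
  have hfreq : ∃ᶠ z in 𝓝[≠] x, F z = 0 := hacc.mono (fun z hz => hz.2)
  have hzero := hF.eqOn_zero_of_preconnected_of_frequently_eq_zero isPreconnected_UHP
    (hKU hxK) hfreq
  obtain ⟨w, hw, hFw⟩ := hF0
  exact hFw (hzero hw)

/-- **`n`-th roots on the upper half plane.**  A function analytic on the upper half plane, not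
identically zero, all of whose orders of vanishing are divisible by `n`, is the `n`-th power of
an analytic function. -/
theorem exists_nth_root_UHP {F : ℂ → ℂ} (hF : AnalyticOnNhd ℂ F UHP) (hF0 : ∃ z ∈ UHP, F z ≠ 0)
    {n : ℕ} (hn : 0 < n) (hdiv : ∀ z ∈ UHP, n ∣ analyticOrderNatAt F z) :
    ∃ H : ℂ → ℂ, AnalyticOnNhd ℂ H UHP ∧ ∀ z ∈ UHP, H z ^ n = F z := by
  classical
  have htop : ∀ z ∈ UHP, analyticOrderAt F z ≠ ⊤ := fun z hz =>
    analyticOrderAt_ne_top_UHP hF hF0 hz
  -- a base point in `D 0` where `F` does not vanish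
  obtain ⟨z₀, hz₀, hFz₀⟩ : ∃ z₀ ∈ D 0, F z₀ ≠ 0 := by
    by_contra hcon
    push Not at hcon
    have hI : Complex.I ∈ UHP := I_mem_UHP
    refine htop Complex.I hI ?_
    rw [analyticOrderAt_eq_top]
    filter_upwards [(isOpen_D 0).mem_nhds (I_mem_D 0)] with z hz using hcon z hz
  obtain ⟨w₀, hw₀⟩ := IsAlgClosed.exists_pow_nat_eq (F z₀) hn
  have hw₀0 : w₀ ≠ 0 := by
    rintro rfl
    rw [zero_pow hn.ne'] at hw₀
    exact hFz₀ hw₀.symm
  have hz₀m : ∀ m, z₀ ∈ D m := fun m => D_subset_D (Nat.zero_le m) hz₀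
  -- normalised roots on each `D m`
  have hex : ∀ m : ℕ, ∃ H : ℂ → ℂ, AnalyticOnNhd ℂ H (D m) ∧ (∀ z ∈ D m, H z ^ n = F z) ∧
      H z₀ = w₀ := by
    intro m
    have hfin := finite_zeros_of_isCompact hF hF0 (isCompact_Dbar m) (Dbar_subset_UHP m)
    obtain ⟨H', hH', hH'pow⟩ := exists_root_of_finite_zeros (U := D m) (n := n)
      (fun G hG hG0 => exists_root_ball_of_ne_zero hG hG0 hn.ne') hfin.toFinset F
      (hF.mono (D_subset_UHP m))
      (fun z hz h0 => by
        rw [Set.Finite.mem_toFinset]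
        exact ⟨D_subset_Dbar m hz, h0⟩)
      (fun z hz => htop z (D_subset_UHP m hz)) (fun z hz => hdiv z (D_subset_UHP m hz))
    have hH'z₀ : H' z₀ ≠ 0 := by
      intro h0
      have := hH'pow z₀ (hz₀m m)
      rw [h0, zero_pow hn.ne'] at this
      exact hFz₀ this.symm
    refine ⟨fun z => w₀ / H' z₀ * H' z, analyticOnNhd_const.mul hH', fun z hz => ?_, ?_⟩
    · rw [mul_pow, div_pow, hH'pow z hz, hH'pow z₀ (hz₀m m), hw₀, div_self hFz₀, one_mul]
    · exact div_mul_cancel₀ w₀ hH'z₀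
  choose H hHan hHpow hHz₀ using hex
  have hcompat : ∀ m, ∀ z ∈ D m, H (m + 1) z = H m z := by
    intro m
    refine eqOn_of_pow_eq (isPreconnected_D m) ((hHan (m + 1)).mono (D_mono m)) (hHan m) hn
      (fun z hz => ?_) (hz₀m m) ?_ ?_
    · rw [hHpow (m + 1) z (D_mono m hz), hHpow m z hz]
    · rw [hHz₀, hHz₀]
    · rw [hHz₀]
      exact hw₀0
  obtain ⟨g, hg⟩ := exists_glue D D_mono H hcompat
  refine ⟨g, fun z hz => ?_, fun z hz => ?_⟩
  · obtain ⟨m, hm⟩ := exists_mem_D hz
    have heq : g =ᶠ[𝓝 z] H m := by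
      filter_upwards [(isOpen_D m).mem_nhds hm] with w hw using hg m w hw
    exact (hHan m z hm).congr heq.symm
  · obtain ⟨m, hm⟩ := exists_mem_D hz
    rw [hg m z hm, hHpow m z hm]

/-! ### Versions for functions on `ℍ` -/

/-- The function on `ℍ` obtained by restricting a function analytic on `UHP` is holomorphic. -/
theorem mdiff_of_analyticOnNhd {H : ℂ → ℂ} (hH : AnalyticOnNhd ℂ H UHP) :
    MDiff (fun z : ℍ => H (z : ℂ)) :=
  mdiff_of_differentiableOn hH.differentiableOn

/-- **`n`-th roots on `ℍ`.**  A holomorphic function on `ℍ`, not identically zero, all of whose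
orders of vanishing are divisible by `n`, is the `n`-th power of a holomorphic function; the
orders of the root are the orders of the function divided by `n`. -/
theorem exists_nth_root {f : ℍ → ℂ} (hf : MDiff f) (hf0 : f ≠ 0) {n : ℕ} (hn : 0 < n)
    (hdiv : ∀ τ : ℍ, n ∣ ordAt f τ) :
    ∃ h : ℍ → ℂ, MDiff h ∧ h ≠ 0 ∧ (∀ z, h z ^ n = f z) ∧ ∀ τ : ℍ, n * ordAt h τ = ordAt f τ := by
  have hF : AnalyticOnNhd ℂ (f ∘ ofComplex) UHP := analyticOnNhd hf
  have hF0 : ∃ z ∈ UHP, (f ∘ ofComplex) z ≠ 0 := by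
    by_contra hcon
    push Not at hcon
    apply hf0
    funext τ
    have := hcon τ (coe_mem_UHP τ)
    rwa [comp_ofComplex_coe] at this
  have hdiv' : ∀ z ∈ UHP, n ∣ analyticOrderNatAt (f ∘ ofComplex) z := by
    intro z hz
    have hz' : 0 < z.im := hz
    exact hdiv ⟨z, hz'⟩
  obtain ⟨H, hH, hHpow⟩ := exists_nth_root_UHP hF hF0 hn hdiv'
  have hmd : MDiff (fun z : ℍ => H (z : ℂ)) := mdiff_of_analyticOnNhd hH
  have hpow : ∀ z : ℍ, H (z : ℂ) ^ n = f z := by
    intro z
    rw [hHpow z (coe_mem_UHP z), comp_ofComplex_coe]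
  have hh0 : (fun z : ℍ => H (z : ℂ)) ≠ 0 := by
    intro h0
    apply hf0
    funext z
    have h1 : H (z : ℂ) = 0 := congrFun h0 z
    rw [← hpow z, h1, zero_pow hn.ne']
    rfl
  refine ⟨fun z : ℍ => H (z : ℂ), hmd, hh0, hpow, fun τ => ?_⟩
  have hfeq : f = (fun z : ℍ => H (z : ℂ)) ^ n := by
    funext z
    rw [Pi.pow_apply, hpow z]
  rw [hfeq, ordAt_pow hmd hh0 n τ]

/-- Uniqueness of `n`-th roots on `ℍ` up to `n`-th roots of unity. -/
theorem exists_root_of_unity_of_pow_eq_H {h₁ h₂ : ℍ → ℂ} (hh₁ : MDiff h₁) (hh₂ : MDiff h₂)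
    {n : ℕ} (hn : 0 < n) (hpow : ∀ z, h₁ z ^ n = h₂ z ^ n) :
    ∃ ζ : ℂ, ζ ^ n = 1 ∧ ∀ z, h₁ z = ζ * h₂ z := by
  obtain ⟨ζ, hζ, h⟩ := exists_root_of_unity_of_pow_eq isPreconnected_UHP (analyticOnNhd hh₁)
    (analyticOnNhd hh₂) hn (fun z _ => by
      simp only [Function.comp_apply]
      exact hpow _)
  refine ⟨ζ, hζ, fun z => ?_⟩
  have := h z (coe_mem_UHP z)
  rwa [comp_ofComplex_coe, comp_ofComplex_coe] at this

/-- **`n`-th roots of fractions on `ℍ`.**  If all orders of the fraction `f / g` of holomorphic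
functions on `ℍ` are divisible by `n`, then `f / g = (a / g) ^ n` for a holomorphic `a`. -/
theorem exists_nth_root_frac {f g : ℍ → ℂ} (hf : MDiff f) (hg : MDiff g) (hf0 : f ≠ 0)
    (hg0 : g ≠ 0) {n : ℕ} (hn : 0 < n) (hdiv : ∀ τ : ℍ, (n : ℤ) ∣ ordFrac f g τ) :
    ∃ a : ℍ → ℂ, MDiff a ∧ a ≠ 0 ∧ (∀ z, f z * g z ^ n = g z * a z ^ n) ∧
      ∀ τ : ℍ, (n : ℤ) * ordFrac a g τ = ordFrac f g τ := by
  obtain ⟨m, rfl⟩ : ∃ m, n = m + 1 := ⟨n - 1, by omega⟩
  have hgp : MDiff (g ^ m) := hg.pow m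
  have hgp0 : g ^ m ≠ 0 := pow_ne_zero' hg hg0 m
  have hF : MDiff (f * g ^ m) := hf.mul hgp
  have hF0 : f * g ^ m ≠ 0 := mul_ne_zero' hf hgp hf0 hgp0
  have hord : ∀ τ, ordAt (f * g ^ m) τ = ordAt f τ + m * ordAt g τ := fun τ => by
    rw [ordAt_mul hf hgp hf0 hgp0 τ, ordAt_pow hg hg0]
  have hdiv' : ∀ τ, (m + 1) ∣ ordAt (f * g ^ m) τ := by
    intro τ
    rw [hord τ]
    have h1 := hdiv τ
    unfold ordFrac at h1
    have h2 : ((m + 1 : ℕ) : ℤ) ∣ ((ordAt f τ + m * ordAt g τ : ℕ) : ℤ) := by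
      have h3 : ((ordAt f τ + m * ordAt g τ : ℕ) : ℤ)
          = ((ordAt f τ : ℤ) - (ordAt g τ : ℤ)) + ((m + 1 : ℕ) : ℤ) * (ordAt g τ : ℤ) := by
        push_cast
        ring
      rw [h3]
      exact dvd_add h1 (dvd_mul_right _ _)
    exact_mod_cast h2
  obtain ⟨a, ha, ha0, hapow, haord⟩ := exists_nth_root hF hF0 hn hdiv'
  refine ⟨a, ha, ha0, fun z => ?_, fun τ => ?_⟩
  · rw [hapow z]
    simp only [Pi.mul_apply, Pi.pow_apply]
    ring
  · unfold ordFrac
    have h1 := haord τ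
    rw [hord τ] at h1
    have h2 : ((m + 1 : ℕ) : ℤ) * (ordAt a τ : ℤ) = (ordAt f τ : ℤ) + (m : ℤ) * (ordAt g τ : ℤ) := by
      exact_mod_cast h1
    push_cast at h2 ⊢
    linear_combination h2

end Fermat.Agent.Lib.UHP
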