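/-
ESJ / JAC-TORS analytic core (helper79): the multiplier (Kummer character) of a fraction of
holomorphic functions on the upper half plane.  Mathlib + `S24/OrdH` + `Lib/UHP/NthRoot`.

A "meromorphic function" `H` on `ℍ` is given as a fraction `a / b` of holomorphic functions
(`b ≠ 0`); `HasMult a b γ c` says `H ∘ γ = c • H`.

  * `HasMult.unique`, `HasMult.mul`, `hasMult_one`, `hasMult_neg_one`, `HasMult.inv`, ... :
    the multiplier is unique and multiplicative in `γ` and in `H`;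
  * `exists_hasMult_of_root` : if `(a / b) ^ n = f / g` and `f / g` is `γ`-invariant, then
    `a / b` has a multiplier at `γ`, an `n`-th root of unity;
  * `mult`, `multHom` : the resulting character `Γ →* ℂˣ`;
  * `HasMult.eq_zpow` : at a fixed point `τ` of `δ` the multiplier is
    `δ'(τ) ^ ord_τ H = ((denom δ τ) ^ 2)⁻¹ ^ ordFrac a b τ`;
  * `HasMult.eq_one_of_pow` : the multiplier of an elliptic element `δ` (`δ ^ m = ± 1`) is
    trivial as soon as `m ∣ ord_τ H`.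
-/
import Mathlib
import Fermat.Agent.S24.OrdH
import Fermat.Agent.Lib.UHP.NthRoot

set_option autoImplicit false

open Complex Metric Set Filter Topology UpperHalfPlane
open scoped Manifold MatrixGroups

namespace Fermat.Agent.Lib.UHP

open Fermat.Agent.S24.OrdH

/-- `HasMult a b γ c`: the fraction `H = a / b` of functions on `ℍ` satisfies `H ∘ γ = c • H`. -/
def HasMult (a b : ℍ → ℂ) (γ : SL(2, ℤ)) (c : ℂ) : Prop :=
  ∀ z : ℍ, a (γ • z) * b z = c * (a z * b (γ • z))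

variable {a b : ℍ → ℂ}

theorem hasMult_one (a b : ℍ → ℂ) : HasMult a b 1 1 := fun z => by simp

theorem hasMult_neg_one (a b : ℍ → ℂ) : HasMult a b (-1) 1 := fun z => by
  rw [ModularGroup.SL_neg_smul]
  simp

/-- `HasMult a b γ 1` means that `a / b` is `γ`-invariant. -/
theorem hasMult_one_iff {γ : SL(2, ℤ)} :
    HasMult a b γ 1 ↔ ∀ z : ℍ, a (γ • z) * b z = a z * b (γ • z) := by
  unfold HasMult
  simp

theorem exists_mul_ne_zero (ha : MDiff a) (hb : MDiff b) (ha0 : a ≠ 0) (hb0 : b ≠ 0) :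
    ∃ z, a z * b z ≠ 0 := by
  have h := mul_ne_zero' ha hb ha0 hb0
  by_contra hcon
  push Not at hcon
  exact h (funext hcon)

/-- The multiplier is unique. -/
theorem HasMult.unique (ha : MDiff a) (hb : MDiff b) (ha0 : a ≠ 0) (hb0 : b ≠ 0)
    {γ : SL(2, ℤ)} {c c' : ℂ} (h : HasMult a b γ c) (h' : HasMult a b γ c') : c = c' := by
  obtain ⟨z, hz⟩ := exists_mul_ne_zero ha (mdifferentiable_comp_smul hb γ) ha0
    (comp_smul_ne_zero hb0 γ)
  exact mul_right_cancel₀ hz ((h z).symm.trans (h' z))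

theorem HasMult.ne_zero (ha : MDiff a) (hb : MDiff b) (ha0 : a ≠ 0) (hb0 : b ≠ 0)
    {γ : SL(2, ℤ)} {c : ℂ} (h : HasMult a b γ c) : c ≠ 0 := by
  rintro rfl
  obtain ⟨z, hz⟩ := exists_mul_ne_zero (mdifferentiable_comp_smul ha γ) hb
    (comp_smul_ne_zero ha0 γ) hb0
  exact hz (by simpa using h z)

/-- The multiplier is multiplicative in `γ`. -/
theorem HasMult.mul (ha : MDiff a) (hb : MDiff b) (ha0 : a ≠ 0) (hb0 : b ≠ 0)
    {γ₁ γ₂ : SL(2, ℤ)} {c₁ c₂ : ℂ} (h₁ : HasMult a b γ₁ c₁) (h₂ : HasMult a b γ₂ c₂) :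
    HasMult a b (γ₁ * γ₂) (c₁ * c₂) := by
  set G : ℍ → ℂ := (fun z => a ((γ₁ * γ₂) • z)) * b -
    (fun _ => c₁ * c₂) * (a * fun z => b ((γ₁ * γ₂) • z)) with hGdef
  have hG : MDiff G := ((mdifferentiable_comp_smul ha _).mul hb).sub
    (mdifferentiable_const.mul (ha.mul (mdifferentiable_comp_smul hb _)))
  set K : ℍ → ℂ := (fun z => a (γ₂ • z)) * fun z => b (γ₂ • z) with hKdef
  have hK : MDiff K := (mdifferentiable_comp_smul ha γ₂).mul (mdifferentiable_comp_smul hb γ₂)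
  have hK0 : K ≠ 0 := mul_ne_zero' (mdifferentiable_comp_smul ha γ₂)
    (mdifferentiable_comp_smul hb γ₂) (comp_smul_ne_zero ha0 γ₂) (comp_smul_ne_zero hb0 γ₂)
  have hGK : G * K = 0 := by
    funext z
    have e1 := h₁ (γ₂ • z)
    have e2 := h₂ z
    rw [← mul_smul] at e1
    simp only [hGdef, hKdef, Pi.mul_apply, Pi.sub_apply, Pi.zero_apply]
    linear_combination (a (γ₂ • z) * b z) * e1 + (c₁ * a (γ₂ • z) * b ((γ₁ * γ₂) • z)) * e2
  rcases eq_zero_or_eq_zero_of_mul_eq_zero hG hK hGK with h | h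
  · intro z
    have := congrFun h z
    simp only [hGdef, Pi.mul_apply, Pi.sub_apply, Pi.zero_apply] at this
    exact sub_eq_zero.mp this
  · exact absurd h hK0

/-- The multiplier of the inverse. -/
theorem HasMult.inv {γ : SL(2, ℤ)} {c : ℂ} (h : HasMult a b γ c) (hc : c ≠ 0) :
    HasMult a b γ⁻¹ c⁻¹ := by
  intro z
  have e := h (γ⁻¹ • z)
  rw [smul_inv_smul] at e
  rw [e]
  field_simp

/-- The multiplier is multiplicative in the fraction. -/
theorem HasMult.mul_frac {a' b' : ℍ → ℂ} {γ : SL(2, ℤ)} {c c' : ℂ} (h : HasMult a b γ c)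
    (h' : HasMult a' b' γ c') : HasMult (a * a') (b * b') γ (c * c') := by
  intro z
  have e := h z
  have e' := h' z
  simp only [Pi.mul_apply]
  linear_combination (a' (γ • z) * b' z) * e + (c * (a z * b (γ • z))) * e'

/-- The multiplier of the inverse fraction. -/
theorem HasMult.inv_frac {γ : SL(2, ℤ)} {c : ℂ} (h : HasMult a b γ c) (hc : c ≠ 0) :
    HasMult b a γ c⁻¹ := by
  intro z
  have e := h z
  field_simp
  linear_combination -e

/-- The multiplier of a power of the fraction. -/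
theorem HasMult.pow_frac {γ : SL(2, ℤ)} {c : ℂ} (h : HasMult a b γ c) (k : ℕ) :
    HasMult (a ^ k) (b ^ k) γ (c ^ k) := by
  intro z
  have e := h z
  simp only [Pi.pow_apply]
  rw [← mul_pow, e, mul_pow, mul_pow]

/-- Proportional fractions have the same multipliers: if `a' / b' = κ • (a / b)` then the
multiplier of `a' / b'` at `γ` is that of `a / b`. -/
theorem HasMult.congr {a' b' : ℍ → ℂ} (ha' : MDiff a') (hb : MDiff b) (hb' : MDiff b')
    (hb0 : b ≠ 0) {κ : ℂ} (hrel : ∀ z, a' z * b z = κ * (a z * b' z)) {γ : SL(2, ℤ)} {c : ℂ}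
    (h : HasMult a b γ c) : HasMult a' b' γ c := by
  set G : ℍ → ℂ := (fun z => a' (γ • z)) * b' -
    (fun _ => c) * (a' * fun z => b' (γ • z)) with hGdef
  have hG : MDiff G := ((mdifferentiable_comp_smul ha' _).mul hb').sub
    (mdifferentiable_const.mul (ha'.mul (mdifferentiable_comp_smul hb' _)))
  set K : ℍ → ℂ := (fun z => b (γ • z)) * b with hKdef
  have hK : MDiff K := (mdifferentiable_comp_smul hb γ).mul hb
  have hK0 : K ≠ 0 := mul_ne_zero' (mdifferentiable_comp_smul hb γ) hb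
    (comp_smul_ne_zero hb0 γ) hb0
  have hGK : G * K = 0 := by
    funext z
    have e1 := hrel (γ • z)
    have e2 := hrel z
    have e3 := h z
    simp only [hGdef, hKdef, Pi.mul_apply, Pi.sub_apply, Pi.zero_apply]
    linear_combination (b' z * b z) * e1 - (c * b' (γ • z) * b (γ • z)) * e2
      + (κ * b' (γ • z) * b' z) * e3
  rcases eq_zero_or_eq_zero_of_mul_eq_zero hG hK hGK with h | h
  · intro z
    have := congrFun h z
    simp only [hGdef, Pi.mul_apply, Pi.sub_apply, Pi.zero_apply] at this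
    exact sub_eq_zero.mp this
  · exact absurd h hK0

/-- If the `n`-th powers of `H ∘ γ` and `H` agree, then `H` has a multiplier at `γ`, an `n`-th
root of unity. -/
theorem exists_hasMult_of_pow_eq (ha : MDiff a) (hb : MDiff b) {n : ℕ} (hn : 0 < n)
    (γ : SL(2, ℤ)) (hpow : ∀ z, (a (γ • z) * b z) ^ n = (a z * b (γ • z)) ^ n) :
    ∃ c : ℂ, c ^ n = 1 ∧ HasMult a b γ c :=
  exists_root_of_unity_of_pow_eq_H (h₁ := fun z => a (γ • z) * b z)
    (h₂ := fun z => a z * b (γ • z)) ((mdifferentiable_comp_smul ha γ).mul hb)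
    (ha.mul (mdifferentiable_comp_smul hb γ)) hn hpow

/-- **The Kummer multiplier.**  If `(a / b) ^ n = f / g` and `f / g` is `γ`-invariant, then
`a / b` has a multiplier at `γ`, an `n`-th root of unity. -/
theorem exists_hasMult_of_root {f g : ℍ → ℂ} (hg : MDiff g) (ha : MDiff a) (hb : MDiff b)
    (hg0 : g ≠ 0) {n : ℕ} (hn : 0 < n) (hroot : ∀ z, f z * b z ^ n = g z * a z ^ n)
    (γ : SL(2, ℤ)) (hinv : ∀ z, f (γ • z) * g z = f z * g (γ • z)) :
    ∃ c : ℂ, c ^ n = 1 ∧ HasMult a b γ c := by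
  apply exists_hasMult_of_pow_eq ha hb hn γ
  set P : ℍ → ℂ := ((fun z => a (γ • z)) * b) ^ n - (a * fun z => b (γ • z)) ^ n with hPdef
  have hP : MDiff P := (((mdifferentiable_comp_smul ha γ).mul hb).pow n).sub
    ((ha.mul (mdifferentiable_comp_smul hb γ)).pow n)
  set K : ℍ → ℂ := (fun z => g (γ • z)) * g with hKdef
  have hK : MDiff K := (mdifferentiable_comp_smul hg γ).mul hg
  have hK0 : K ≠ 0 := mul_ne_zero' (mdifferentiable_comp_smul hg γ) hg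
    (comp_smul_ne_zero hg0 γ) hg0
  have hPK : P * K = 0 := by
    funext z
    have r1 := hroot (γ • z)
    have r2 := hroot z
    have r3 := hinv z
    simp only [hPdef, hKdef, Pi.mul_apply, Pi.sub_apply, Pi.pow_apply, Pi.zero_apply]
    linear_combination -(b z ^ n * g z) * r1 + (b (γ • z) ^ n * g (γ • z)) * r2
      + (b (γ • z) ^ n * b z ^ n) * r3
  rcases eq_zero_or_eq_zero_of_mul_eq_zero hP hK hPK with h | h
  · intro z
    have := congrFun h z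
    simp only [hPdef, Pi.mul_apply, Pi.sub_apply, Pi.pow_apply, Pi.zero_apply] at this
    exact sub_eq_zero.mp this
  · exact absurd h hK0

/-! ### The multiplier as a function and as a character -/

/-- The multiplier of `a / b` at `γ` (junk value `1` if there is none). -/
noncomputable def mult (a b : ℍ → ℂ) (γ : SL(2, ℤ)) : ℂ :=
  open scoped Classical in if h : ∃ c, HasMult a b γ c then h.choose else 1

theorem hasMult_mult {γ : SL(2, ℤ)} (h : ∃ c, HasMult a b γ c) : HasMult a b γ (mult a b γ) := by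
  unfold mult
  rw [dif_pos h]
  exact h.choose_spec

theorem HasMult.mult_eq (ha : MDiff a) (hb : MDiff b) (ha0 : a ≠ 0) (hb0 : b ≠ 0)
    {γ : SL(2, ℤ)} {c : ℂ} (h : HasMult a b γ c) : mult a b γ = c :=
  (hasMult_mult ⟨c, h⟩).unique ha hb ha0 hb0 h

theorem mult_one (ha : MDiff a) (hb : MDiff b) (ha0 : a ≠ 0) (hb0 : b ≠ 0) : mult a b 1 = 1 :=
  (hasMult_one a b).mult_eq ha hb ha0 hb0

theorem mult_neg_one (ha : MDiff a) (hb : MDiff b) (ha0 : a ≠ 0) (hb0 : b ≠ 0) :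
    mult a b (-1) = 1 :=
  (hasMult_neg_one a b).mult_eq ha hb ha0 hb0

theorem mult_mul (ha : MDiff a) (hb : MDiff b) (ha0 : a ≠ 0) (hb0 : b ≠ 0) {γ₁ γ₂ : SL(2, ℤ)}
    (h₁ : ∃ c, HasMult a b γ₁ c) (h₂ : ∃ c, HasMult a b γ₂ c) :
    mult a b (γ₁ * γ₂) = mult a b γ₁ * mult a b γ₂ :=
  ((hasMult_mult h₁).mul ha hb ha0 hb0 (hasMult_mult h₂)).mult_eq ha hb ha0 hb0

theorem mult_ne_zero (ha : MDiff a) (hb : MDiff b) (ha0 : a ≠ 0) (hb0 : b ≠ 0) (γ : SL(2, ℤ)) :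
    mult a b γ ≠ 0 := by
  by_cases h : ∃ c, HasMult a b γ c
  · exact (hasMult_mult h).ne_zero ha hb ha0 hb0
  · unfold mult
    rw [dif_neg h]
    exact one_ne_zero

/-- **The Kummer character** of a fraction `a / b` having a multiplier at every element of a
subgroup `Γ`. -/
noncomputable def multHom (ha : MDiff a) (hb : MDiff b) (ha0 : a ≠ 0) (hb0 : b ≠ 0)
    (Γ : Subgroup SL(2, ℤ)) (hΓ : ∀ γ ∈ Γ, ∃ c, HasMult a b γ c) : Γ →* ℂˣ where
  toFun γ := Units.mk0 (mult a b γ) (mult_ne_zero ha hb ha0 hb0 γ)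
  map_one' := by
    apply Units.ext
    simp only [Units.val_mk0, Units.val_one, Subgroup.coe_one]
    exact mult_one ha hb ha0 hb0
  map_mul' γ₁ γ₂ := by
    apply Units.ext
    simp only [Units.val_mk0, Units.val_mul, Subgroup.coe_mul]
    exact mult_mul ha hb ha0 hb0 (hΓ γ₁ γ₁.2) (hΓ γ₂ γ₂.2)

theorem coe_multHom (ha : MDiff a) (hb : MDiff b) (ha0 : a ≠ 0) (hb0 : b ≠ 0)
    (Γ : Subgroup SL(2, ℤ)) (hΓ : ∀ γ ∈ Γ, ∃ c, HasMult a b γ c) (γ : Γ) :
    ((multHom ha hb ha0 hb0 Γ hΓ γ : ℂˣ) : ℂ) = mult a b γ := rfl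

theorem hasMult_multHom (ha : MDiff a) (hb : MDiff b) (ha0 : a ≠ 0) (hb0 : b ≠ 0)
    (Γ : Subgroup SL(2, ℤ)) (hΓ : ∀ γ ∈ Γ, ∃ c, HasMult a b γ c) (γ : Γ) :
    HasMult a b γ (multHom ha hb ha0 hb0 Γ hΓ γ : ℂˣ) :=
  hasMult_mult (hΓ γ γ.2)

/-- The Kummer character has exponent `n` when the multipliers are `n`-th roots of unity. -/
theorem multHom_pow_eq_one (ha : MDiff a) (hb : MDiff b) (ha0 : a ≠ 0) (hb0 : b ≠ 0)
    (Γ : Subgroup SL(2, ℤ)) {n : ℕ} (hΓ : ∀ γ ∈ Γ, ∃ c, c ^ n = 1 ∧ HasMult a b γ c) (γ : Γ) :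
    multHom ha hb ha0 hb0 Γ (fun γ hγ => (hΓ γ hγ).imp fun _ h => h.2) γ ^ n = 1 := by
  apply Units.ext
  obtain ⟨c, hc, hm⟩ := hΓ γ γ.2
  rw [Units.val_pow_eq_pow_val, coe_multHom, hm.mult_eq ha hb ha0 hb0, hc]
  rfl

/-- The Kummer character is trivial iff the fraction is `Γ`-invariant. -/
theorem multHom_eq_one_iff (ha : MDiff a) (hb : MDiff b) (ha0 : a ≠ 0) (hb0 : b ≠ 0)
    (Γ : Subgroup SL(2, ℤ)) (hΓ : ∀ γ ∈ Γ, ∃ c, HasMult a b γ c) (γ : Γ) :
    multHom ha hb ha0 hb0 Γ hΓ γ = 1 ↔ ∀ z : ℍ, a ((γ : SL(2, ℤ)) • z) * b z =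
      a z * b ((γ : SL(2, ℤ)) • z) := by
  rw [← hasMult_one_iff]
  constructor
  · intro h
    have h1 := hasMult_multHom ha hb ha0 hb0 Γ hΓ γ
    rw [h] at h1
    exact h1
  · intro h
    apply Units.ext
    rw [coe_multHom, h.mult_eq ha hb ha0 hb0]
    rfl

/-! ### Fixed points: the multiplier of an elliptic element -/

/-- Local computation at a fixed point: if `φ z₀ = z₀` and the fraction `a / b` of analytic
functions satisfies `(a / b) ∘ φ = c • (a / b)` near `z₀`, then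
`φ'(z₀) ^ ord a = c * φ'(z₀) ^ ord b`. -/
theorem deriv_pow_eq_of_comp_eq {a b φ : ℂ → ℂ} {z₀ : ℂ} (ha : AnalyticAt ℂ a z₀)
    (hb : AnalyticAt ℂ b z₀) (hka : analyticOrderAt a z₀ ≠ ⊤) (hkb : analyticOrderAt b z₀ ≠ ⊤)
    (hφ : DifferentiableAt ℂ φ z₀) (hfix : φ z₀ = z₀) {c : ℂ}
    (h : ∀ᶠ z in 𝓝 z₀, a (φ z) * b z = c * (a z * b (φ z))) :
    deriv φ z₀ ^ analyticOrderNatAt a z₀ = c * deriv φ z₀ ^ analyticOrderNatAt b z₀ := by
  obtain ⟨A, hA, hA0, hAeq⟩ := ha.analyticOrderAt_ne_top.mp hka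
  obtain ⟨B, hB, hB0, hBeq⟩ := hb.analyticOrderAt_ne_top.mp hkb
  set ka := analyticOrderNatAt a z₀ with hkadef
  set kb := analyticOrderNatAt b z₀ with hkbdef
  set ψ : ℂ → ℂ := dslope φ z₀ with hψdef
  have hψc : ContinuousAt ψ z₀ := continuousAt_dslope_same.mpr hφ
  have hψ0 : ψ z₀ = deriv φ z₀ := dslope_same φ z₀
  have hφt : Tendsto φ (𝓝 z₀) (𝓝 z₀) := by
    have h1 := hφ.continuousAt.tendsto
    rwa [hfix] at h1
  have hAeq' := hφt.eventually hAeq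
  have hBeq' := hφt.eventually hBeq
  have hsub : ∀ z, φ z - z₀ = (z - z₀) * ψ z := by
    intro z
    have h1 := sub_smul_dslope φ z₀ z
    rw [hfix, smul_eq_mul] at h1
    exact h1.symm
  have key : ∀ᶠ z in 𝓝[≠] z₀, ψ z ^ ka * A (φ z) * B z = c * (A z * (ψ z ^ kb * B (φ z))) := by
    filter_upwards [nhdsWithin_le_nhds hAeq, nhdsWithin_le_nhds hBeq, nhdsWithin_le_nhds hAeq',
      nhdsWithin_le_nhds hBeq', nhdsWithin_le_nhds h, self_mem_nhdsWithin] with z h1 h2 h3 h4 h5 h6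
    have hX : z - z₀ ≠ 0 := sub_ne_zero.mpr h6
    rw [h3, h4, h1, h2, hsub z] at h5
    simp only [smul_eq_mul, mul_pow] at h5
    have hXX : (z - z₀) ^ ka * (z - z₀) ^ kb ≠ 0 :=
      mul_ne_zero (pow_ne_zero _ hX) (pow_ne_zero _ hX)
    apply mul_left_cancel₀ hXX
    linear_combination h5
  have hAφ : ContinuousAt (fun z => A (φ z)) z₀ := by
    have hA' : ContinuousAt A (φ z₀) := by rw [hfix]; exact hA.continuousAt
    exact ContinuousAt.comp (g := A) (f := φ) hA' hφ.continuousAt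
  have hBφ : ContinuousAt (fun z => B (φ z)) z₀ := by
    have hB' : ContinuousAt B (φ z₀) := by rw [hfix]; exact hB.continuousAt
    exact ContinuousAt.comp (g := B) (f := φ) hB' hφ.continuousAt
  have hL : Tendsto (fun z => ψ z ^ ka * A (φ z) * B z) (𝓝[≠] z₀)
      (𝓝 (ψ z₀ ^ ka * A (φ z₀) * B z₀)) :=
    ((((hψc.pow ka).mul hAφ).mul hB.continuousAt).tendsto).mono_left nhdsWithin_le_nhds
  have hR : Tendsto (fun z => c * (A z * (ψ z ^ kb * B (φ z)))) (𝓝[≠] z₀)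
      (𝓝 (c * (A z₀ * (ψ z₀ ^ kb * B (φ z₀))))) :=
    ((continuousAt_const.mul (hA.continuousAt.mul ((hψc.pow kb).mul hBφ))).tendsto).mono_left
      nhdsWithin_le_nhds
  have hlim := tendsto_nhds_unique_of_eventuallyEq hL hR key
  rw [hfix, hψ0] at hlim
  have hAB : A z₀ * B z₀ ≠ 0 := mul_ne_zero hA0 hB0
  apply mul_left_cancel₀ hAB
  linear_combination hlim

/-- The derivative of the Möbius map of `δ ∈ SL(2, ℤ)` at `τ` is `(denom δ τ) ^ (-2)`. -/
theorem hasDerivAt_moeb_SL (δ : SL(2, ℤ)) (τ : ℍ) :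
    HasDerivAt (moeb (δ : GL (Fin 2) ℝ)) ((denom (δ : GL (Fin 2) ℝ) τ ^ 2)⁻¹) (τ : ℂ) := by
  have h := hasDerivAt_moeb (δ : GL (Fin 2) ℝ) τ.im_pos
  have hdet : (((δ : GL (Fin 2) ℝ).det.val : ℝ) : ℂ) = 1 := by simp
  rw [hdet, one_div] at h
  exact h

/-- **Multiplier at a fixed point.**  If `δ • τ = τ` and `H = a / b` has multiplier `c` at `δ`,
then `δ'(τ) ^ ord_τ a = c * δ'(τ) ^ ord_τ b` where `δ'(τ) = (denom δ τ) ^ (-2)`. -/
theorem HasMult.deriv_pow_eq (ha : MDiff a) (hb : MDiff b) (ha0 : a ≠ 0) (hb0 : b ≠ 0)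
    {δ : SL(2, ℤ)} {c : ℂ} (h : HasMult a b δ c) (τ : ℍ) (hfix : δ • τ = τ) :
    ((denom (δ : GL (Fin 2) ℝ) τ ^ 2)⁻¹) ^ ordAt a τ =
      c * ((denom (δ : GL (Fin 2) ℝ) τ ^ 2)⁻¹) ^ ordAt b τ := by
  have hγ := det_pos_SL δ
  have hderiv := hasDerivAt_moeb_SL δ τ
  have hmτ : moeb (δ : GL (Fin 2) ℝ) (τ : ℂ) = (τ : ℂ) := by
    rw [← coe_smul_eq_moeb hγ, ← ModularGroup.sl_moeb, hfix]
  have hloc : ∀ᶠ w in 𝓝 (τ : ℂ),
      (a ∘ ofComplex) (moeb (δ : GL (Fin 2) ℝ) w) * (b ∘ ofComplex) w =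
        c * ((a ∘ ofComplex) w * (b ∘ ofComplex) (moeb (δ : GL (Fin 2) ℝ) w)) := by
    filter_upwards [comp_smul_eventuallyEq a hγ τ, comp_smul_eventuallyEq b hγ τ] with w h1 h2
    simp only [Function.comp_apply] at h1 h2 ⊢
    rw [← h1, ← h2]
    exact h (ofComplex w)
  have key := deriv_pow_eq_of_comp_eq (analyticAt ha τ) (analyticAt hb τ) (order_ne_top ha ha0 τ)
    (order_ne_top hb hb0 τ) hderiv.differentiableAt hmτ hloc
  rw [hderiv.deriv] at key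
  exact key

/-- **Multiplier at a fixed point**, `ℤ`-power form:
`c = δ'(τ) ^ ord_τ (a / b)` with `δ'(τ) = (denom δ τ) ^ (-2)`. -/
theorem HasMult.eq_zpow (ha : MDiff a) (hb : MDiff b) (ha0 : a ≠ 0) (hb0 : b ≠ 0)
    {δ : SL(2, ℤ)} {c : ℂ} (h : HasMult a b δ c) (τ : ℍ) (hfix : δ • τ = τ) :
    c = ((denom (δ : GL (Fin 2) ℝ) τ ^ 2)⁻¹) ^ ordFrac a b τ := by
  have key := h.deriv_pow_eq ha hb ha0 hb0 τ hfix
  have hμ : (denom (δ : GL (Fin 2) ℝ) τ ^ 2)⁻¹ ≠ 0 :=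
    inv_ne_zero (pow_ne_zero 2 (denom_ne_zero _ τ))
  unfold ordFrac
  rw [zpow_sub₀ hμ, zpow_natCast, zpow_natCast, key, mul_div_assoc,
    div_self (pow_ne_zero _ hμ), mul_one]

/-- **Triviality at elliptic points.**  If `δ • τ = τ`, `δ ^ m = ± 1` and `m` divides the order
of `a / b` at `τ`, then the multiplier of `a / b` at `δ` is `1`. -/
theorem HasMult.eq_one_of_pow (ha : MDiff a) (hb : MDiff b) (ha0 : a ≠ 0) (hb0 : b ≠ 0)
    {δ : SL(2, ℤ)} {c : ℂ} (h : HasMult a b δ c) (τ : ℍ) (hfix : δ • τ = τ) (m : ℕ)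
    (hδ : δ ^ m = 1 ∨ δ ^ m = -1) (hdiv : (m : ℤ) ∣ ordFrac a b τ) : c = 1 := by
  have hμ0 : denom (δ : GL (Fin 2) ℝ) τ ≠ 0 := denom_ne_zero _ τ
  have hpow := denom_SL_pow_of_fixed δ τ hfix m
  have hμm : (denom (δ : GL (Fin 2) ℝ) τ ^ 2) ^ m = 1 := by
    rw [← pow_mul, mul_comm, pow_mul, ← hpow]
    rcases hδ with h1 | h1
    · rw [h1]
      simp [denom]
    · rw [h1, denom_SL_neg_one]
      norm_num
  obtain ⟨q, hq⟩ := hdiv
  rw [h.eq_zpow ha hb ha0 hb0 τ hfix, hq, zpow_mul, zpow_natCast, inv_pow, hμm, inv_one,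
    one_zpow]

/-- Elements of order `4` (`δ ^ 2 = -1`): the multiplier is trivial when the order is even. -/
theorem HasMult.eq_one_of_sq (ha : MDiff a) (hb : MDiff b) (ha0 : a ≠ 0) (hb0 : b ≠ 0)
    {δ : SL(2, ℤ)} {c : ℂ} (h : HasMult a b δ c) (τ : ℍ) (hfix : δ • τ = τ)
    (hδ : δ ^ 2 = -1) (hdiv : (2 : ℤ) ∣ ordFrac a b τ) : c = 1 :=
  h.eq_one_of_pow ha hb ha0 hb0 τ hfix 2 (Or.inr hδ) (by exact_mod_cast hdiv)

/-- Elements of order `3` or `6` (`δ ^ 3 = ± 1`): the multiplier is trivial when the order is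
divisible by `3`. -/
theorem HasMult.eq_one_of_cube (ha : MDiff a) (hb : MDiff b) (ha0 : a ≠ 0) (hb0 : b ≠ 0)
    {δ : SL(2, ℤ)} {c : ℂ} (h : HasMult a b δ c) (τ : ℍ) (hfix : δ • τ = τ)
    (hδ : δ ^ 3 = 1 ∨ δ ^ 3 = -1) (hdiv : (3 : ℤ) ∣ ordFrac a b τ) : c = 1 :=
  h.eq_one_of_pow ha hb ha0 hb0 τ hfix 3 hδ (by exact_mod_cast hdiv)

/-! ### Packaged statements -/

/-- Two `n`-th roots `a / b`, `a' / b'` of the same fraction `f / g` have the same multipliers. -/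
theorem HasMult.of_same_pow {f g a' b' : ℍ → ℂ} (hg : MDiff g) (ha : MDiff a) (hb : MDiff b)
    (ha' : MDiff a') (hb' : MDiff b') (hg0 : g ≠ 0) (hb0 : b ≠ 0) {n : ℕ} (hn : 0 < n)
    (hroot : ∀ z, f z * b z ^ n = g z * a z ^ n) (hroot' : ∀ z, f z * b' z ^ n = g z * a' z ^ n)
    {γ : SL(2, ℤ)} {c : ℂ} (h : HasMult a b γ c) : HasMult a' b' γ c := by
  set P : ℍ → ℂ := (a' * b) ^ n - (a * b') ^ n with hPdef
  have hP : MDiff P := ((ha'.mul hb).pow n).sub ((ha.mul hb').pow n)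
  have hPg : P * g = 0 := by
    funext z
    have r1 := hroot z
    have r2 := hroot' z
    simp only [hPdef, Pi.mul_apply, Pi.sub_apply, Pi.pow_apply, Pi.zero_apply]
    linear_combination -(b z ^ n) * r2 + (b' z ^ n) * r1
  have hP0 : P = 0 := (eq_zero_or_eq_zero_of_mul_eq_zero hP hg hPg).resolve_right hg0
  have hpow : ∀ z, (a' z * b z) ^ n = (a z * b' z) ^ n := by
    intro z
    have := congrFun hP0 z
    simp only [hPdef, Pi.mul_apply, Pi.sub_apply, Pi.pow_apply, Pi.zero_apply] at this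
    exact sub_eq_zero.mp this
  obtain ⟨ζ, -, hζ⟩ := exists_root_of_unity_of_pow_eq_H (h₁ := fun z => a' z * b z)
    (h₂ := fun z => a z * b' z) (ha'.mul hb) (ha.mul hb') hn hpow
  exact h.congr ha' hb hb' hb0 (κ := ζ) hζ

/-- **Kummer on `ℍ`, packaged.**  Let `f / g` be a fraction of holomorphic functions on `ℍ`,
invariant under a subgroup `Γ` of `SL(2, ℤ)`, all of whose orders are divisible by `n`.  Then
`f / g = (a / g) ^ n` for a holomorphic `a`, and there is a character `χ : Γ →* ℂˣ` of exponent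
`n` with `(a / g) ∘ γ = χ γ • (a / g)`; `χ` is trivial on every `γ ∈ Γ` fixing a point `τ` with
`γ ^ m = ± 1` such that `n * m` divides the order of `f / g` at `τ`. -/
theorem exists_kummer_character {f g : ℍ → ℂ} (hf : MDiff f) (hg : MDiff g) (hf0 : f ≠ 0)
    (hg0 : g ≠ 0) {n : ℕ} (hn : 0 < n) (hdiv : ∀ τ : ℍ, (n : ℤ) ∣ ordFrac f g τ)
    (Γ : Subgroup SL(2, ℤ))
    (hinv : ∀ γ ∈ Γ, ∀ z : ℍ, f (γ • z) * g z = f z * g (γ • z)) :
    ∃ (a : ℍ → ℂ) (χ : Γ →* ℂˣ), MDiff a ∧ a ≠ 0 ∧ (∀ z, f z * g z ^ n = g z * a z ^ n) ∧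
      (∀ τ : ℍ, (n : ℤ) * ordFrac a g τ = ordFrac f g τ) ∧ (∀ γ : Γ, χ γ ^ n = 1) ∧
      (∀ γ : Γ, HasMult a g γ (χ γ : ℂˣ)) ∧
      ∀ (γ : Γ) (τ : ℍ) (m : ℕ), (γ : SL(2, ℤ)) • τ = τ →
        ((γ : SL(2, ℤ)) ^ m = 1 ∨ (γ : SL(2, ℤ)) ^ m = -1) →
        ((n : ℤ) * (m : ℤ)) ∣ ordFrac f g τ → χ γ = 1 := by
  obtain ⟨a, ha, ha0, hroot, hord⟩ := exists_nth_root_frac hf hg hf0 hg0 hn hdiv
  have hΓ : ∀ γ ∈ Γ, ∃ c, c ^ n = 1 ∧ HasMult a g γ c := fun γ hγ =>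
    exists_hasMult_of_root hg ha hg hg0 hn hroot γ (hinv γ hγ)
  have hΓ' : ∀ γ ∈ Γ, ∃ c, HasMult a g γ c := fun γ hγ => (hΓ γ hγ).imp fun _ h => h.2
  refine ⟨a, multHom ha hg ha0 hg0 Γ hΓ', ha, ha0, hroot, hord,
    multHom_pow_eq_one ha hg ha0 hg0 Γ hΓ, hasMult_multHom ha hg ha0 hg0 Γ hΓ', ?_⟩
  intro γ τ m hfix hγm hdvd
  have hm : (m : ℤ) ∣ ordFrac a g τ := by
    rw [← hord τ] at hdvd
    exact (mul_dvd_mul_iff_left (by exact_mod_cast hn.ne')).mp hdvd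
  apply Units.ext
  rw [coe_multHom]
  exact (hasMult_multHom ha hg ha0 hg0 Γ hΓ' γ).eq_one_of_pow ha hg ha0 hg0 τ hfix m hγm hm

end Fermat.Agent.Lib.UHP
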