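/-
ESJ / JAC-TORS analytic core (helper79): Eisenstein series with a character, and the existence
of a fraction of holomorphic functions on `ℍ` with a prescribed multiplier system.
Mathlib + `S24/OrdH` + `Lib/UHP/Multiplier`.

  * `wE κ k z = ∑' v, κ v * (v 0 z + v 1) ^ (-k)` : weighted Eisenstein sums with bounded
    coefficients; summability, holomorphy, behaviour under `SL(2, ℤ)`, boundedness at `i∞`,
    limit along the imaginary axis;
  * `eisChar Γ χ k` : the Eisenstein series attached to a unitary character `χ` of a subgroup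
    `Γ ≤ SL(2, ℤ)` which is trivial on the elements with lower left entry `0`;
    `eisChar_smul : eisChar Γ χ k (γ • z) = χ γ * denom γ z ^ k * eisChar Γ χ k z`;
  * `exists_hasMult_character` : for such `χ` there are holomorphic `a, b ≠ 0` on `ℍ` with
    `HasMult a b γ (χ γ)` for all `γ ∈ Γ`, i.e. `(a / b) ∘ γ = χ γ • (a / b)`.
-/
import Mathlib
import Fermat.Agent.S24.OrdH
import Fermat.Agent.Lib.UHP.Multiplier

set_option autoImplicit false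

open Complex Filter Topology UpperHalfPlane Matrix EisensteinSeries
open scoped Manifold MatrixGroups

namespace Fermat.Agent.Lib.UHP

open Fermat.Agent.S24.OrdH

/-! ### Weighted Eisenstein sums -/

/-- The weighted Eisenstein sum `∑' v, κ v * (v 0 z + v 1) ^ (-k)`. -/
noncomputable def wE (κ : (Fin 2 → ℤ) → ℂ) (k : ℤ) (z : ℍ) : ℂ :=
  ∑' v : Fin 2 → ℤ, κ v * eisSummand k v z

variable {κ : (Fin 2 → ℤ) → ℂ} {k : ℤ}

theorem norm_wE_term_le (hκ : ∀ v, ‖κ v‖ ≤ 1) (k : ℤ) (v : Fin 2 → ℤ) (z : ℍ) :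
    ‖κ v * eisSummand k v z‖ ≤ ‖eisSummand k v z‖ := by
  rw [norm_mul]
  exact mul_le_of_le_one_left (norm_nonneg _) (hκ v)

theorem summable_wE (hκ : ∀ v, ‖κ v‖ ≤ 1) (hk : 3 ≤ k) (z : ℍ) :
    Summable (fun v : Fin 2 → ℤ => κ v * eisSummand k v z) :=
  Summable.of_norm_bounded (summable_norm_eisSummand hk z) (fun v => norm_wE_term_le hκ k v z)

/-- The full absolute Eisenstein sum dominates every weighted sum. -/
theorem norm_wE_le (hκ : ∀ v, ‖κ v‖ ≤ 1) (hk : 3 ≤ k) (z : ℍ) :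
    ‖wE κ k z‖ ≤ ∑' v : Fin 2 → ℤ, ‖eisSummand k v z‖ := by
  unfold wE
  refine (norm_tsum_le_tsum_norm (summable_wE hκ hk z).norm).trans ?_
  exact (summable_wE hκ hk z).norm.tsum_le_tsum (fun v => norm_wE_term_le hκ k v z)
    (summable_norm_eisSummand hk z)

/-- Locally uniform convergence of the weighted Eisenstein sums. -/
theorem wE_tendstoLocallyUniformly (hκ : ∀ v, ‖κ v‖ ≤ 1) (hk : 3 ≤ k) :
    TendstoLocallyUniformly (fun (s : Finset (Fin 2 → ℤ)) ↦ (∑ x ∈ s, κ x * eisSummand k x ·))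
      (wE κ k ·) Filter.atTop := by
  have hk' : (2 : ℝ) < k := by norm_cast
  have p_sum : Summable fun x : Fin 2 → ℤ ↦ ‖x‖ ^ (-k) :=
    mod_cast (summable_one_div_norm_rpow hk')
  simp only [tendstoLocallyUniformly_iff_forall_isCompact, wE]
  intro K hK
  obtain ⟨A, B, hB, HABK⟩ := subset_verticalStrip_of_isCompact hK
  refine (tendstoUniformlyOn_tsum (hu := p_sum.mul_left <| r ⟨⟨A, B⟩, hB⟩ ^ (-k : ℝ))
    (fun p z hz ↦ ?_)).mono HABK
  refine (norm_wE_term_le hκ k p z).trans ?_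
  simpa only [eisSummand, one_div, ← _root_.zpow_neg, norm_zpow, ← Real.rpow_intCast,
    Int.cast_neg] using summand_bound_of_mem_verticalStrip (by positivity) p hB hz

theorem wE_tendstoLocallyUniformlyOn (hκ : ∀ v, ‖κ v‖ ≤ 1) (hk : 3 ≤ k) :
    TendstoLocallyUniformlyOn (fun (s : Finset (Fin 2 → ℤ)) ↦
      (fun (z : ℍ) ↦ ∑ x ∈ s, κ x * eisSummand k x z) ∘ ofComplex) ((wE κ k) ∘ ofComplex)
          Filter.atTop {z : ℂ | 0 < z.im} := by
  rw [← upperHalfPlaneSet, ← range_coe, ← Set.image_univ]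
  apply TendstoLocallyUniformlyOn.comp (s := ⊤) _ _ _ (OpenPartialHomeomorph.continuousOn_symm _)
  · simp only [Set.top_eq_univ, tendstoLocallyUniformlyOn_univ]
    exact wE_tendstoLocallyUniformly hκ hk
  · simp only [IsOpenEmbedding.toOpenPartialHomeomorph_target, Set.top_eq_univ,
      Set.mapsTo_range_iff, Set.mem_univ, forall_const]

/-- Weighted Eisenstein sums with bounded coefficients are holomorphic. -/
theorem mdiff_wE (hκ : ∀ v, ‖κ v‖ ≤ 1) (hk : 3 ≤ k) : MDiff (wE κ k) := by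
  rw [UpperHalfPlane.mdifferentiable_iff]
  refine (wE_tendstoLocallyUniformlyOn hκ hk).differentiableOn
    (Eventually.of_forall fun s ↦ ?_) isOpen_upperHalfPlaneSet
  have h1 : ((fun (z : ℍ) ↦ ∑ x ∈ s, κ x * eisSummand k x z) ∘ ofComplex) =
      fun w : ℂ => ∑ x ∈ s, κ x * ((eisSummand k x) ∘ ofComplex) w := by
    funext w
    simp [Function.comp]
  rw [h1]
  exact DifferentiableOn.fun_sum fun x _ ↦
    (eisSummand_extension_differentiableOn k x).const_mul (κ x)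

/-! ### Behaviour under `SL(2, ℤ)` -/

theorem vecMul_vecMul_inv (A : SL(2, ℤ)) (v : Fin 2 → ℤ) :
    (v ᵥ* (A : Matrix (Fin 2) (Fin 2) ℤ)) ᵥ* ((A⁻¹ : SL(2, ℤ)) : Matrix (Fin 2) (Fin 2) ℤ) = v := by
  rw [Matrix.vecMul_vecMul, ← Matrix.SpecialLinearGroup.coe_mul, mul_inv_cancel,
    Matrix.SpecialLinearGroup.coe_one, Matrix.vecMul_one]

theorem vecMul_inv_vecMul (A : SL(2, ℤ)) (v : Fin 2 → ℤ) :
    (v ᵥ* ((A⁻¹ : SL(2, ℤ)) : Matrix (Fin 2) (Fin 2) ℤ)) ᵥ* (A : Matrix (Fin 2) (Fin 2) ℤ) = v := by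
  rw [Matrix.vecMul_vecMul, ← Matrix.SpecialLinearGroup.coe_mul, inv_mul_cancel,
    Matrix.SpecialLinearGroup.coe_one, Matrix.vecMul_one]

/-- Right multiplication by `A ∈ SL(2, ℤ)` on row vectors, as an equivalence. -/
def vecMulEquiv (A : SL(2, ℤ)) : (Fin 2 → ℤ) ≃ (Fin 2 → ℤ) where
  toFun v := v ᵥ* (A : Matrix (Fin 2) (Fin 2) ℤ)
  invFun v := v ᵥ* ((A⁻¹ : SL(2, ℤ)) : Matrix (Fin 2) (Fin 2) ℤ)
  left_inv v := vecMul_vecMul_inv A v
  right_inv v := vecMul_inv_vecMul A v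

theorem vecMulEquiv_apply (A : SL(2, ℤ)) (v : Fin 2 → ℤ) :
    vecMulEquiv A v = v ᵥ* (A : Matrix (Fin 2) (Fin 2) ℤ) := rfl

/-- The transformation law of weighted Eisenstein sums: `A` permutes the coefficients. -/
theorem wE_smul (κ : (Fin 2 → ℤ) → ℂ) (k : ℤ) (A : SL(2, ℤ)) (z : ℍ) :
    wE κ k (A • z) = denom A z ^ k *
      wE (fun w => κ (w ᵥ* ((A⁻¹ : SL(2, ℤ)) : Matrix (Fin 2) (Fin 2) ℤ))) k z := by
  unfold wE
  simp_rw [eisSummand_SL2_apply]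
  rw [← tsum_mul_left, ← (vecMulEquiv A).tsum_eq
    (fun w => denom A z ^ k *
      (κ (w ᵥ* ((A⁻¹ : SL(2, ℤ)) : Matrix (Fin 2) (Fin 2) ℤ)) * eisSummand k w z))]
  refine tsum_congr fun v => ?_
  rw [vecMulEquiv_apply, vecMul_vecMul_inv]
  ring

/-- The full absolute Eisenstein sum. -/
noncomputable def absE (k : ℤ) (z : ℍ) : ℝ := ∑' v : Fin 2 → ℤ, ‖eisSummand k v z‖

theorem absE_smul (k : ℤ) (A : SL(2, ℤ)) (z : ℍ) :
    absE k (A • z) = ‖denom A z‖ ^ k * absE k z := by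
  unfold absE
  simp_rw [eisSummand_SL2_apply, norm_mul, norm_zpow]
  rw [tsum_mul_left]
  congr 1
  exact (vecMulEquiv A).tsum_eq (fun v => ‖eisSummand k v z‖)

theorem denom_T_zpow (n : ℤ) (z : ℍ) : denom (ModularGroup.T ^ n : SL(2, ℤ)) z = 1 := by
  rw [ModularGroup.denom_apply, ModularGroup.coe_T_zpow]
  simp

theorem absE_T_zpow_smul (k : ℤ) (n : ℤ) (z : ℍ) :
    absE k ((ModularGroup.T ^ n : SL(2, ℤ)) • z) = absE k z := by
  rw [absE_smul, denom_T_zpow, norm_one, _root_.one_zpow, one_mul]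

/-- The full absolute Eisenstein sum is bounded on `{z | 1 ≤ im z}`. -/
theorem absE_le (hk : 3 ≤ k) (z : ℍ) (hz : 1 ≤ z.im) :
    absE k z ≤ ∑' x : Fin 2 → ℤ, r ⟨⟨1, 1⟩, one_pos⟩ ^ (-k) * ‖x‖ ^ (-k) := by
  have hk' : (2 : ℝ) < k := by norm_cast
  obtain ⟨n, hn⟩ := ModularGroup_T_zpow_mem_verticalStrip z (N := 1) one_pos
  rw [← absE_T_zpow_smul k ((1 : ℕ) * n) z]
  unfold absE
  apply (summable_norm_eisSummand hk _).tsum_le_tsum _
  · exact_mod_cast (summable_one_div_norm_rpow hk').mul_left <| r ⟨⟨1, 1⟩, one_pos⟩ ^ (-k)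
  · intro x
    simp_rw [eisSummand, norm_zpow]
    have h1 := summand_bound_of_mem_verticalStrip (lt_trans two_pos hk').le x one_pos
      (verticalStrip_anti_right ((1 : ℕ) : ℝ) hz hn)
    exact_mod_cast h1

/-- Weighted Eisenstein sums with bounded coefficients are bounded at `i∞`. -/
theorem isBoundedAtImInfty_wE (hκ : ∀ v, ‖κ v‖ ≤ 1) (hk : 3 ≤ k) : IsBoundedAtImInfty (wE κ k) := by
  rw [UpperHalfPlane.isBoundedAtImInfty_iff]
  exact ⟨_, 1, fun z hz => (norm_wE_le hκ hk z).trans (absE_le hk z hz)⟩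

/-- All translates `z ↦ denom σ z ^ (-k) * wE κ k (σ • z)` of a weighted Eisenstein sum with
bounded coefficients are bounded at `i∞`. -/
theorem isBoundedAtImInfty_wE_smul (hκ : ∀ v, ‖κ v‖ ≤ 1) (hk : 3 ≤ k) (σ : SL(2, ℤ)) :
    IsBoundedAtImInfty (fun z : ℍ => denom σ z ^ (-k) * wE κ k (σ • z)) := by
  have h : (fun z : ℍ => denom σ z ^ (-k) * wE κ k (σ • z)) =
      wE (fun w => κ (w ᵥ* ((σ⁻¹ : SL(2, ℤ)) : Matrix (Fin 2) (Fin 2) ℤ))) k := by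
    funext z
    rw [wE_smul, ← mul_assoc, ← zpow_add₀ (denom_ne_zero σ z), neg_add_cancel, zpow_zero, one_mul]
  rw [h]
  exact isBoundedAtImInfty_wE (fun v => hκ _) hk

/-! ### The limit along the imaginary axis -/

theorem coe_ofComplex_I_mul {y : ℝ} (hy : 0 < y) :
    ((ofComplex (Complex.I * y) : ℍ) : ℂ) = Complex.I * y := by
  rw [ofComplex_apply_of_im_pos (by simpa using hy)]

theorem ofComplex_I_mul_mem_verticalStrip {y : ℝ} (hy : 1 ≤ y) :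
    (ofComplex (Complex.I * y) : ℍ) ∈ verticalStrip 0 1 := by
  have hy0 : 0 < y := lt_of_lt_of_le one_pos hy
  rw [mem_verticalStrip_iff]
  have h1 : (ofComplex (Complex.I * y) : ℍ).re = 0 := by
    rw [← UpperHalfPlane.coe_re, coe_ofComplex_I_mul hy0]
    simp
  have h2 : (ofComplex (Complex.I * y) : ℍ).im = y := by
    rw [← UpperHalfPlane.coe_im, coe_ofComplex_I_mul hy0]
    simp
  rw [h1, h2]
  exact ⟨by simp, hy⟩

/-- Along the imaginary axis a weighted Eisenstein sum tends to the sum of the terms with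
`v 0 = 0`. -/
theorem tendsto_wE_I_mul (hκ : ∀ v, ‖κ v‖ ≤ 1) (hk : 3 ≤ k) :
    Tendsto (fun y : ℝ => wE κ k (ofComplex (Complex.I * y))) atTop
      (𝓝 (∑' v : Fin 2 → ℤ, if v 0 = 0 then κ v * ((v 1 : ℤ) : ℂ) ^ (-k) else 0)) := by
  have hk' : (2 : ℝ) < k := by norm_cast
  obtain ⟨m, rfl⟩ : ∃ m : ℕ, k = (m : ℤ) := Int.eq_ofNat_of_zero_le (by omega)
  have hm : m ≠ 0 := by omega
  unfold wE
  refine tendsto_tsum_of_dominated_convergence
    (bound := fun x : Fin 2 → ℤ => r ⟨⟨0, 1⟩, one_pos⟩ ^ (-(m : ℤ)) * ‖x‖ ^ (-(m : ℤ))) ?_ ?_ ?_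
  · exact_mod_cast (summable_one_div_norm_rpow hk').mul_left <|
      r ⟨⟨0, 1⟩, one_pos⟩ ^ (-(m : ℤ))
  · intro v
    by_cases hv : v 0 = 0
    · rw [if_pos hv]
      have : (fun y : ℝ => κ v * eisSummand (m : ℤ) v (ofComplex (Complex.I * y))) =
          fun _ => κ v * ((v 1 : ℤ) : ℂ) ^ (-(m : ℤ)) := by
        funext y
        simp [eisSummand, hv]
      rw [this]
      exact tendsto_const_nhds
    · rw [if_neg hv]
      have h0 : Tendsto (fun y : ℝ => eisSummand (m : ℤ) v (ofComplex (Complex.I * y))) atTop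
          (𝓝 0) := by
        have hlim : Tendsto (fun y : ℝ => (y ^ m)⁻¹) atTop (𝓝 0) :=
          tendsto_inv_atTop_zero.comp (tendsto_pow_atTop hm)
        refine squeeze_zero_norm' ?_ hlim
        filter_upwards [eventually_ge_atTop (1 : ℝ)] with y hy
        have hy0 : 0 < y := lt_of_lt_of_le one_pos hy
        simp only [eisSummand, coe_ofComplex_I_mul hy0, _root_.zpow_neg, zpow_natCast, norm_inv,
          norm_pow]
        have hv1 : (1 : ℝ) ≤ |((v 0 : ℤ) : ℝ)| := by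
          have : (1 : ℤ) ≤ |v 0| := Int.one_le_abs hv
          exact_mod_cast this
        have him : y ≤ ‖((v 0 : ℤ) : ℂ) * (Complex.I * y) + ((v 1 : ℤ) : ℂ)‖ := by
          have h1 := Complex.abs_im_le_norm (((v 0 : ℤ) : ℂ) * (Complex.I * y) + ((v 1 : ℤ) : ℂ))
          have h2 : (((v 0 : ℤ) : ℂ) * (Complex.I * y) + ((v 1 : ℤ) : ℂ)).im = (v 0 : ℤ) * y := by
            simp
          rw [h2, abs_mul, abs_of_pos hy0] at h1
          nlinarith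
        exact inv_anti₀ (pow_pos hy0 m) (pow_le_pow_left₀ hy0.le him m)
      have := h0.const_mul (κ v)
      rwa [mul_zero] at this
  · filter_upwards [eventually_ge_atTop (1 : ℝ)] with y hy v
    refine (norm_wE_term_le hκ _ v _).trans ?_
    simp_rw [eisSummand, norm_zpow]
    have h1 := summand_bound_of_mem_verticalStrip (lt_trans two_pos hk').le v one_pos
      (ofComplex_I_mul_mem_verticalStrip hy)
    exact_mod_cast h1

/-! ### Eisenstein series with a character -/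

/-- If two elements of `SL(2, ℤ)` have the same bottom row, then `γ₁ γ₂⁻¹` has lower left
entry `0`. -/
theorem mul_inv_apply_one_zero {γ₁ γ₂ : SL(2, ℤ)}
    (h : (γ₁ : Matrix (Fin 2) (Fin 2) ℤ) 1 = (γ₂ : Matrix (Fin 2) (Fin 2) ℤ) 1) :
    (γ₁ * γ₂⁻¹ : SL(2, ℤ)) 1 0 = 0 := by
  have h1 : ((γ₁ * γ₂⁻¹ : SL(2, ℤ)) : Matrix (Fin 2) (Fin 2) ℤ) 1 =
      ((γ₂ * γ₂⁻¹ : SL(2, ℤ)) : Matrix (Fin 2) (Fin 2) ℤ) 1 := by
    rw [Matrix.SpecialLinearGroup.coe_mul, Matrix.SpecialLinearGroup.coe_mul,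
      Matrix.mul_apply_eq_vecMul, Matrix.mul_apply_eq_vecMul, h]
  rw [mul_inv_cancel, Matrix.SpecialLinearGroup.coe_one] at h1
  have h2 := congrFun h1 0
  simpa using h2

/-- An element of `SL(2, ℤ)` with lower left entry `0` has lower right entry `± 1`. -/
theorem apply_one_one_of_apply_one_zero {γ : SL(2, ℤ)} (h : γ 1 0 = 0) :
    γ 1 1 = 1 ∨ γ 1 1 = -1 := by
  have hdet := γ.det_coe
  rw [Matrix.det_fin_two, h, mul_zero, sub_zero] at hdet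
  exact Int.isUnit_iff.mp (IsUnit.of_mul_eq_one _ (by rw [mul_comm]; exact hdet))

/-- The coefficient function attached to a character `χ` of `Γ`: `χ(γ)⁻¹` on the bottom row
of `γ ∈ Γ`, and `0` on vectors which are not bottom rows of elements of `Γ`. -/
noncomputable def charCoeff (Γ : Subgroup SL(2, ℤ)) (χ : Γ →* ℂˣ) (v : Fin 2 → ℤ) : ℂ :=
  open scoped Classical in
  if h : ∃ γ : Γ, ((γ : SL(2, ℤ)) : Matrix (Fin 2) (Fin 2) ℤ) 1 = v then
    (((χ h.choose)⁻¹ : ℂˣ) : ℂ) else 0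

variable {Γ : Subgroup SL(2, ℤ)} {χ : Γ →* ℂˣ}

theorem charCoeff_row (hχ : ∀ γ : Γ, (γ : SL(2, ℤ)) 1 0 = 0 → χ γ = 1) (γ : Γ) :
    charCoeff Γ χ (((γ : SL(2, ℤ)) : Matrix (Fin 2) (Fin 2) ℤ) 1) = (((χ γ)⁻¹ : ℂˣ) : ℂ) := by
  have h : ∃ γ' : Γ, ((γ' : SL(2, ℤ)) : Matrix (Fin 2) (Fin 2) ℤ) 1 =
      ((γ : SL(2, ℤ)) : Matrix (Fin 2) (Fin 2) ℤ) 1 := ⟨γ, rfl⟩
  unfold charCoeff
  rw [dif_pos h]
  have h1 := mul_inv_apply_one_zero h.choose_spec
  have h2 : χ (h.choose * γ⁻¹) = 1 := hχ _ (by simpa using h1)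
  rw [map_mul, map_inv, mul_inv_eq_one] at h2
  rw [h2]

theorem charCoeff_of_not_row {v : Fin 2 → ℤ}
    (h : ¬ ∃ γ : Γ, ((γ : SL(2, ℤ)) : Matrix (Fin 2) (Fin 2) ℤ) 1 = v) :
    charCoeff Γ χ v = 0 := by
  unfold charCoeff
  rw [dif_neg h]

theorem norm_charCoeff_le (hχ1 : ∀ γ : Γ, ‖((χ γ : ℂˣ) : ℂ)‖ = 1) (v : Fin 2 → ℤ) :
    ‖charCoeff Γ χ v‖ ≤ 1 := by
  unfold charCoeff
  split_ifs with h
  · rw [Units.val_inv_eq_inv_val, norm_inv, hχ1, inv_one]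
  · rw [norm_zero]
    exact zero_le_one

/-- The key symmetry of the coefficient function. -/
theorem charCoeff_vecMul_inv (hχ : ∀ γ : Γ, (γ : SL(2, ℤ)) 1 0 = 0 → χ γ = 1) (A : Γ)
    (w : Fin 2 → ℤ) :
    charCoeff Γ χ (w ᵥ* (((A : SL(2, ℤ))⁻¹ : SL(2, ℤ)) : Matrix (Fin 2) (Fin 2) ℤ)) =
      ((χ A : ℂˣ) : ℂ) * charCoeff Γ χ w := by
  by_cases hw : ∃ γ : Γ, ((γ : SL(2, ℤ)) : Matrix (Fin 2) (Fin 2) ℤ) 1 = w
  · obtain ⟨γ, rfl⟩ := hw
    have h1 : ((γ : SL(2, ℤ)) : Matrix (Fin 2) (Fin 2) ℤ) 1 ᵥ*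
        (((A : SL(2, ℤ))⁻¹ : SL(2, ℤ)) : Matrix (Fin 2) (Fin 2) ℤ) =
        (((γ * A⁻¹ : Γ) : SL(2, ℤ)) : Matrix (Fin 2) (Fin 2) ℤ) 1 := by
      rw [Subgroup.coe_mul, Subgroup.coe_inv, Matrix.SpecialLinearGroup.coe_mul,
        Matrix.mul_apply_eq_vecMul]
    rw [h1, charCoeff_row hχ, charCoeff_row hχ, map_mul, map_inv]
    simp
  · have hw' : ¬ ∃ γ : Γ, ((γ : SL(2, ℤ)) : Matrix (Fin 2) (Fin 2) ℤ) 1 =
        w ᵥ* (((A : SL(2, ℤ))⁻¹ : SL(2, ℤ)) : Matrix (Fin 2) (Fin 2) ℤ) := by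
      rintro ⟨γ, hγ⟩
      apply hw
      refine ⟨γ * A, ?_⟩
      rw [Subgroup.coe_mul, Matrix.SpecialLinearGroup.coe_mul, Matrix.mul_apply_eq_vecMul, hγ,
        vecMul_inv_vecMul]
    rw [charCoeff_of_not_row hw, charCoeff_of_not_row hw', mul_zero]

/-- The Eisenstein series of weight `k` attached to a character `χ` of a subgroup `Γ` of
`SL(2, ℤ)`: `∑ χ(γ)⁻¹ (c z + d) ^ (-k)` over the bottom rows `(c, d)` of the elements of `Γ`. -/
noncomputable def eisChar (Γ : Subgroup SL(2, ℤ)) (χ : Γ →* ℂˣ) (k : ℤ) : ℍ → ℂ :=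
  wE (charCoeff Γ χ) k

theorem mdiff_eisChar (hχ1 : ∀ γ : Γ, ‖((χ γ : ℂˣ) : ℂ)‖ = 1) (hk : 3 ≤ k) :
    MDiff (eisChar Γ χ k) :=
  mdiff_wE (norm_charCoeff_le hχ1) hk

/-- **Transformation law**: `E_χ (γ z) = χ(γ) (c z + d) ^ k E_χ (z)` for `γ ∈ Γ`. -/
theorem eisChar_smul (hχ : ∀ γ : Γ, (γ : SL(2, ℤ)) 1 0 = 0 → χ γ = 1) (k : ℤ) (A : Γ) (z : ℍ) :
    eisChar Γ χ k ((A : SL(2, ℤ)) • z) =
      ((χ A : ℂˣ) : ℂ) * denom (A : SL(2, ℤ)) z ^ k * eisChar Γ χ k z := by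
  unfold eisChar
  rw [wE_smul]
  have h : (fun w => charCoeff Γ χ
      (w ᵥ* (((A : SL(2, ℤ))⁻¹ : SL(2, ℤ)) : Matrix (Fin 2) (Fin 2) ℤ))) =
      fun w => ((χ A : ℂˣ) : ℂ) * charCoeff Γ χ w := funext (charCoeff_vecMul_inv hχ A)
  rw [h]
  unfold wE
  simp_rw [mul_assoc]
  rw [tsum_mul_left]
  ring

/-- All translates of `E_χ` are bounded at `i∞`. -/
theorem isBoundedAtImInfty_eisChar_smul (hχ1 : ∀ γ : Γ, ‖((χ γ : ℂˣ) : ℂ)‖ = 1) (hk : 3 ≤ k)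
    (σ : SL(2, ℤ)) :
    IsBoundedAtImInfty (fun z : ℍ => denom σ z ^ (-k) * eisChar Γ χ k (σ • z)) :=
  isBoundedAtImInfty_wE_smul (norm_charCoeff_le hχ1) hk σ

/-! ### Nonvanishing -/

theorem charCoeff_zero_one (hχ : ∀ γ : Γ, (γ : SL(2, ℤ)) 1 0 = 0 → χ γ = 1) :
    charCoeff Γ χ ![0, 1] = 1 := by
  have h1 : (((1 : Γ) : SL(2, ℤ)) : Matrix (Fin 2) (Fin 2) ℤ) 1 = ![0, 1] := by
    funext i
    fin_cases i <;> simp
  rw [← h1, charCoeff_row hχ, map_one]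
  simp

theorem charCoeff_eq_zero_or_one (hχ : ∀ γ : Γ, (γ : SL(2, ℤ)) 1 0 = 0 → χ γ = 1)
    {v : Fin 2 → ℤ} (hv : v 0 = 0) : charCoeff Γ χ v = 0 ∨ charCoeff Γ χ v = 1 := by
  by_cases h : ∃ γ : Γ, ((γ : SL(2, ℤ)) : Matrix (Fin 2) (Fin 2) ℤ) 1 = v
  · obtain ⟨γ, rfl⟩ := h
    right
    rw [charCoeff_row hχ, hχ γ hv]
    simp
  · left
    exact charCoeff_of_not_row h

theorem charCoeff_eq_zero_of_ne {v : Fin 2 → ℤ} (hv : v 0 = 0) (h1 : v ≠ ![0, 1])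
    (h2 : v ≠ ![0, -1]) :
    charCoeff Γ χ v = 0 := by
  apply charCoeff_of_not_row
  rintro ⟨γ, rfl⟩
  rcases apply_one_one_of_apply_one_zero (γ := (γ : SL(2, ℤ))) hv with h | h
  · apply h1
    funext i
    fin_cases i
    · exact hv
    · exact h
  · apply h2
    funext i
    fin_cases i
    · exact hv
    · exact h

/-- The limit of `E_χ` along the imaginary axis is `1` or `2` (for even `k`). -/
theorem tendsto_eisChar_I_mul (hχ1 : ∀ γ : Γ, ‖((χ γ : ℂˣ) : ℂ)‖ = 1)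
    (hχ : ∀ γ : Γ, (γ : SL(2, ℤ)) 1 0 = 0 → χ γ = 1) (hk : 3 ≤ k) (hke : Even k) :
    ∃ L : ℂ, L ≠ 0 ∧
      Tendsto (fun y : ℝ => eisChar Γ χ k (ofComplex (Complex.I * y))) atTop (𝓝 L) := by
  have hlim := tendsto_wE_I_mul (κ := charCoeff Γ χ) (norm_charCoeff_le hχ1) hk
  refine ⟨_, ?_, hlim⟩
  have hne : (![0, 1] : Fin 2 → ℤ) ≠ ![0, -1] := by
    intro h
    have := congrFun h 1
    simp at this
  have hsupp : ∀ v ∉ ({![0, 1], ![0, -1]} : Finset (Fin 2 → ℤ)),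
      (if v 0 = 0 then charCoeff Γ χ v * ((v 1 : ℤ) : ℂ) ^ (-k) else 0) = 0 := by
    intro v hv
    rw [Finset.mem_insert, Finset.mem_singleton, not_or] at hv
    split_ifs with h0
    · rw [charCoeff_eq_zero_of_ne h0 hv.1 hv.2, zero_mul]
    · rfl
  rw [tsum_eq_sum hsupp, Finset.sum_pair hne]
  have hk2 : Even (-k) := hke.neg
  have e1 : (if (![0, 1] : Fin 2 → ℤ) 0 = 0 then
      charCoeff Γ χ ![0, 1] * (((![0, 1] : Fin 2 → ℤ) 1 : ℤ) : ℂ) ^ (-k) else 0) = 1 := by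
    rw [charCoeff_zero_one hχ]
    simp
  have e2 : (if (![0, -1] : Fin 2 → ℤ) 0 = 0 then
      charCoeff Γ χ ![0, -1] * (((![0, -1] : Fin 2 → ℤ) 1 : ℤ) : ℂ) ^ (-k) else 0) =
      charCoeff Γ χ ![0, -1] := by
    simp [hk2.neg_one_zpow]
  rw [e1, e2]
  rcases charCoeff_eq_zero_or_one hχ (v := ![0, -1]) (by simp) with h | h
  · rw [h]
    norm_num
  · rw [h]
    norm_num

/-- `E_χ` is not identically zero (even weight `k ≥ 4`). -/
theorem eisChar_ne_zero (hχ1 : ∀ γ : Γ, ‖((χ γ : ℂˣ) : ℂ)‖ = 1)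
    (hχ : ∀ γ : Γ, (γ : SL(2, ℤ)) 1 0 = 0 → χ γ = 1) (hk : 3 ≤ k) (hke : Even k) :
    eisChar Γ χ k ≠ 0 := by
  obtain ⟨L, hL, hlim⟩ := tendsto_eisChar_I_mul hχ1 hχ hk hke
  intro h0
  rw [h0] at hlim
  have h1 : Tendsto (fun _ : ℝ => (0 : ℂ)) atTop (𝓝 L) := hlim
  exact hL (tendsto_nhds_unique h1 tendsto_const_nhds)

/-! ### Existence of a fraction with prescribed multipliers -/

/-- The level one Eisenstein series of weight `k` (the case `Γ = ⊤`, `χ = 1`). -/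
noncomputable def eisOne (k : ℤ) : ℍ → ℂ := eisChar ⊤ 1 k

theorem mdiff_eisOne (hk : 3 ≤ k) : MDiff (eisOne k) :=
  mdiff_eisChar (fun _ => by simp) hk

theorem eisOne_ne_zero (hk : 3 ≤ k) (hke : Even k) : eisOne k ≠ 0 :=
  eisChar_ne_zero (fun _ => by simp) (fun _ _ => rfl) hk hke

theorem eisOne_smul (k : ℤ) (γ : SL(2, ℤ)) (z : ℍ) :
    eisOne k (γ • z) = denom γ z ^ k * eisOne k z := by
  have h := eisChar_smul (Γ := ⊤) (χ := 1) (fun _ _ => rfl) k ⟨γ, Subgroup.mem_top γ⟩ z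
  simp only [MonoidHom.one_apply, Units.val_one, one_mul] at h
  exact h

theorem isBoundedAtImInfty_eisOne (hk : 3 ≤ k) : IsBoundedAtImInfty (eisOne k) :=
  isBoundedAtImInfty_wE (norm_charCoeff_le (fun _ => by simp)) hk

/-- The multiplier of `E_χ / E` (both of weight `k`) at `γ ∈ Γ` is `χ γ`. -/
theorem hasMult_eisChar (hχ : ∀ γ : Γ, (γ : SL(2, ℤ)) 1 0 = 0 → χ γ = 1) (k : ℤ) (γ : Γ) :
    HasMult (eisChar Γ χ k) (eisOne k) γ ((χ γ : ℂˣ) : ℂ) := by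
  intro z
  rw [eisChar_smul hχ k γ z, eisOne_smul k γ z]
  ring

/-- **Existence of functions with prescribed multipliers.**  Let `χ` be a unitary character of
a subgroup `Γ` of `SL(2, ℤ)` which is trivial on the elements of `Γ` with lower left entry `0`
(i.e. on `Γ ∩ {± T ^ m}`).  Then there are holomorphic functions `a, b ≠ 0` on `ℍ` with
`(a / b) ∘ γ = χ γ • (a / b)` for all `γ ∈ Γ`. -/
theorem exists_hasMult_character (Γ : Subgroup SL(2, ℤ)) (χ : Γ →* ℂˣ)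
    (hχ1 : ∀ γ : Γ, ‖((χ γ : ℂˣ) : ℂ)‖ = 1)
    (hχ : ∀ γ : Γ, (γ : SL(2, ℤ)) 1 0 = 0 → χ γ = 1) :
    ∃ a b : ℍ → ℂ, MDiff a ∧ MDiff b ∧ a ≠ 0 ∧ b ≠ 0 ∧
      ∀ γ : Γ, HasMult a b γ ((χ γ : ℂˣ) : ℂ) :=
  ⟨eisChar Γ χ 4, eisOne 4, mdiff_eisChar hχ1 (by norm_num), mdiff_eisOne (by norm_num),
    eisChar_ne_zero hχ1 hχ (by norm_num) (by decide), eisOne_ne_zero (by norm_num) (by decide),
    hasMult_eisChar hχ 4⟩

/-- A character of finite order is unitary. -/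
theorem norm_eq_one_of_pow_eq_one {n : ℕ} (hn : n ≠ 0) (hχn : ∀ γ : Γ, χ γ ^ n = 1) (γ : Γ) :
    ‖((χ γ : ℂˣ) : ℂ)‖ = 1 := by
  have h : ((χ γ : ℂˣ) : ℂ) ^ n = 1 := by
    rw [← Units.val_pow_eq_pow_val, hχn γ]
    rfl
  exact Complex.norm_eq_one_of_pow_eq_one h hn

end Fermat.Agent.Lib.UHP
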