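/-
ESJ / JAC-TORS analytic core (helper79): transfer of multipliers along a correspondence.
Mathlib + `S24/OrdH` + `Lib/UHP/Multiplier`.

If `H = a / b` has multipliers on `γ'_i` and the maps `α_i : ℍ → ℍ` satisfy
`α_i ∘ γ = γ'_i ∘ α_{σ i}` for a permutation `σ`, then the "norm" `∏_i H ∘ α_i` has multiplier
`∏_i c_i` at `γ`.  This is the analytic core of "the Kummer character of `T_ℓ D` is the transfer
(Hecke translate) of the Kummer character of `D`".
-/
import Mathlib
import Fermat.Agent.S24.OrdH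
import Fermat.Agent.Lib.UHP.Multiplier

set_option autoImplicit false

open Complex Filter Topology UpperHalfPlane
open scoped Manifold MatrixGroups

namespace Fermat.Agent.Lib.UHP

open Fermat.Agent.S24.OrdH

variable {a b : ℍ → ℂ}

/-- **Transfer of multipliers.**  If `α i (γ • z) = γ' i • α (σ i) z` for a permutation `σ` and
`a / b` has multiplier `c i` at `γ' i`, then `∏ i, (a / b) ∘ α i` has multiplier `∏ i, c i`
at `γ`. -/
theorem HasMult.prod_comp {ι : Type*} [Fintype ι] (α : ι → ℍ → ℍ) (σ : Equiv.Perm ι)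
    (γ : SL(2, ℤ)) (γ' : ι → SL(2, ℤ)) (c : ι → ℂ)
    (hrel : ∀ i z, α i (γ • z) = γ' i • α (σ i) z) (h : ∀ i, HasMult a b (γ' i) (c i)) :
    HasMult (fun z => ∏ i, a (α i z)) (fun z => ∏ i, b (α i z)) γ (∏ i, c i) := by
  intro z
  have h1 : ∏ i, a (α i (γ • z)) = ∏ i, a (γ' i • α (σ i) z) :=
    Finset.prod_congr rfl (fun i _ => by rw [hrel])
  have h2 : ∏ i, b (α i z) = ∏ i, b (α (σ i) z) := (Equiv.prod_comp σ (fun i => b (α i z))).symm
  have h3 : ∏ i, a (α i z) = ∏ i, a (α (σ i) z) := (Equiv.prod_comp σ (fun i => a (α i z))).symm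
  have h4 : ∏ i, b (α i (γ • z)) = ∏ i, b (γ' i • α (σ i) z) :=
    Finset.prod_congr rfl (fun i _ => by rw [hrel])
  show (∏ i, a (α i (γ • z))) * ∏ i, b (α i z) =
    (∏ i, c i) * ((∏ i, a (α i z)) * ∏ i, b (α i (γ • z)))
  rw [h1, h2, h3, h4, ← Finset.prod_mul_distrib, ← Finset.prod_mul_distrib,
    ← Finset.prod_mul_distrib]
  exact Finset.prod_congr rfl (fun i _ => h i (α (σ i) z))

/-- Conjugation: `H ∘ σ` has at `γ` the multiplier of `H` at `σ γ σ⁻¹`. -/
theorem HasMult.comp_conj {γ σ : SL(2, ℤ)} {c : ℂ} (h : HasMult a b (σ * γ * σ⁻¹) c) :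
    HasMult (fun z => a (σ • z)) (fun z => b (σ • z)) γ c := by
  intro z
  have e := h (σ • z)
  rw [mul_smul, mul_smul, inv_smul_smul] at e
  exact e

/-- Conjugation, converse form. -/
theorem HasMult.of_comp_conj {γ σ : SL(2, ℤ)} {c : ℂ}
    (h : HasMult (fun z => a (σ • z)) (fun z => b (σ • z)) γ c) :
    HasMult a b (σ * γ * σ⁻¹) c := by
  intro z
  have e := h (σ⁻¹ • z)
  simp only [smul_inv_smul] at e
  rw [mul_smul, mul_smul]
  exact e

theorem hasMult_comp_conj_iff {γ σ : SL(2, ℤ)} {c : ℂ} :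
    HasMult (fun z => a (σ • z)) (fun z => b (σ • z)) γ c ↔ HasMult a b (σ * γ * σ⁻¹) c :=
  ⟨HasMult.of_comp_conj, HasMult.comp_conj⟩

/-- Precomposition with an element of `GL₂(ℝ)⁺` preserves nonvanishing (as a function). -/
theorem comp_smul_GL_ne_zero (ha0 : a ≠ 0) (g : GL (Fin 2) ℝ) : (fun z : ℍ => a (g • z)) ≠ 0 := by
  intro h
  apply ha0
  funext z
  have := congrFun h (g⁻¹ • z)
  simpa using this

/-- Finite products of holomorphic functions on `ℍ` are holomorphic. -/
theorem mdiff_prod {ι : Type*} (s : Finset ι) (f : ι → ℍ → ℂ) (hf : ∀ i ∈ s, MDiff (f i)) :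
    MDiff (fun z => ∏ i ∈ s, f i z) := by
  classical
  induction s using Finset.induction_on with
  | empty =>
    simp only [Finset.prod_empty]
    exact mdifferentiable_const
  | insert i s hi ih =>
    have h1 : MDiff (f i) := hf i (Finset.mem_insert_self i s)
    have h2 := ih (fun j hj => hf j (Finset.mem_insert_of_mem hj))
    have h3 : (fun z => ∏ j ∈ insert i s, f j z) = f i * fun z => ∏ j ∈ s, f j z := by
      funext z
      rw [Finset.prod_insert hi]
      rfl
    rw [h3]
    exact h1.mul h2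

/-- A finite product of nonzero holomorphic functions on `ℍ` is nonzero. -/
theorem prod_ne_zero' {ι : Type*} (s : Finset ι) (f : ι → ℍ → ℂ) (hf : ∀ i ∈ s, MDiff (f i))
    (hf0 : ∀ i ∈ s, f i ≠ 0) : (fun z => ∏ i ∈ s, f i z) ≠ 0 := by
  classical
  induction s using Finset.induction_on with
  | empty =>
    simp only [Finset.prod_empty]
    exact fun h => one_ne_zero (congrFun h UpperHalfPlane.I)
  | insert i s hi ih =>
    have h1 : MDiff (f i) := hf i (Finset.mem_insert_self i s)
    have h2 := mdiff_prod s f (fun j hj => hf j (Finset.mem_insert_of_mem hj))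
    have h3 : (fun z => ∏ j ∈ insert i s, f j z) = f i * fun z => ∏ j ∈ s, f j z := by
      funext z
      rw [Finset.prod_insert hi]
      rfl
    rw [h3]
    exact mul_ne_zero' h1 h2 (hf0 i (Finset.mem_insert_self i s))
      (ih (fun j hj => hf j (Finset.mem_insert_of_mem hj))
        (fun j hj => hf0 j (Finset.mem_insert_of_mem hj)))

/-- The norm `∏ i, a ∘ g i` along finitely many elements of `GL₂(ℝ)⁺` is holomorphic. -/
theorem mdiff_prod_comp_GL {ι : Type*} [Fintype ι] (ha : MDiff a) (g : ι → GL (Fin 2) ℝ)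
    (hg : ∀ i, 0 < (g i).det.val) : MDiff (fun z : ℍ => ∏ i, a (g i • z)) :=
  mdiff_prod Finset.univ (fun i z => a (g i • z))
    (fun i _ => mdifferentiable_comp_smul_GL ha (hg i))

/-- The norm `∏ i, a ∘ g i` of a nonzero holomorphic function is nonzero. -/
theorem prod_comp_GL_ne_zero {ι : Type*} [Fintype ι] (ha : MDiff a) (ha0 : a ≠ 0)
    (g : ι → GL (Fin 2) ℝ) (hg : ∀ i, 0 < (g i).det.val) :
    (fun z : ℍ => ∏ i, a (g i • z)) ≠ 0 :=
  prod_ne_zero' Finset.univ (fun i z => a (g i • z))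
    (fun i _ => mdifferentiable_comp_smul_GL ha (hg i)) (fun i _ => comp_smul_GL_ne_zero ha0 (g i))

/-- The order of the norm at `τ` is the sum of the orders at the points `g i • τ`. -/
theorem ordAt_prod_comp_GL {ι : Type*} [Fintype ι] (ha : MDiff a) (ha0 : a ≠ 0)
    (g : ι → GL (Fin 2) ℝ) (hg : ∀ i, 0 < (g i).det.val) (τ : ℍ) :
    ordAt (fun z : ℍ => ∏ i, a (g i • z)) τ = ∑ i, ordAt a (g i • τ) := by
  classical
  have key : ∀ s : Finset ι, ordAt (fun z : ℍ => ∏ i ∈ s, a (g i • z)) τ =
      ∑ i ∈ s, ordAt a (g i • τ) := by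
    intro s
    induction s using Finset.induction_on with
    | empty =>
      simp only [Finset.prod_empty, Finset.sum_empty]
      exact ordAt_const one_ne_zero τ
    | insert i s hi ih =>
      have h1 : MDiff (fun z : ℍ => a (g i • z)) := mdifferentiable_comp_smul_GL ha (hg i)
      have h2 := mdiff_prod s (fun i z => a (g i • z))
        (fun j _ => mdifferentiable_comp_smul_GL ha (hg j))
      have h20 := prod_ne_zero' s (fun i z => a (g i • z))
        (fun j _ => mdifferentiable_comp_smul_GL ha (hg j))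
        (fun j _ => comp_smul_GL_ne_zero ha0 (g j))
      have h3 : (fun z : ℍ => ∏ j ∈ insert i s, a (g j • z)) =
          (fun z : ℍ => a (g i • z)) * fun z => ∏ j ∈ s, a (g j • z) := by
        funext z
        rw [Finset.prod_insert hi]
        rfl
      rw [h3, ordAt_mul h1 h2 (comp_smul_GL_ne_zero ha0 (g i)) h20, Finset.sum_insert hi, ih,
        ordAt_comp_smul_GL a (hg i)]
  exact key Finset.univ

end Fermat.Agent.Lib.UHP
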